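/-
S55 / 22-LOC-INV, part 22a (helper80): the abstract "unramified class dies" lemma.

`G` a finite group, `A` a `G`-module, `Nu`, `NL` normal subgroups (think `G = Gal(M/K)`, `A = Mˣ`,
`Nu = Gal(M/K_n)`, `NL = Gal(M/L)`, `M = L K_n`, `K_n/K` unramified of degree `n = [L:K]`),
`v : A → ℤ` an `NL`-invariant surjective homomorphism (the normalised valuation of `M`) such that
* `v` takes values in `e ℤ` on `A^Nu` (`e` = ramification index of `M / K_n`),
* `|NL|` divides `e`,
* every 2-cocycle of `NL` with values in `ker v` is a coboundary (`M/L` is unramified).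
Then `res_NL ∘ inf_{G/Nu} = 0` on `H²`, hence (inflation–restriction, `InfRes9`)
`inf H²(G/Nu, A^Nu) ⊆ inf H²(G/NL, A^NL)`: the lower bound `|H²(L/K)| ≥ n` of local class field
theory.  No sorry.
-/
import Mathlib
import Fermat.Agent.S55.InfRes9.InfRes2

set_option autoImplicit false

open CategoryTheory groupCohomology Rep Limits

universe u

namespace Fermat.Agent.S55.LocInv80.Abs

open Fermat.Agent.S55.InfRes9

/-! ### (U1) `|G|` kills `H²` -/

section U1

variable {k G : Type u} [CommRing k] [Group G] [Fintype G]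

/-- **(U1)** the order of a finite group kills `H²`, on cocycles: `|G| • c = d (s ↦ ∑ u, c (s, u))`. -/
theorem card_nsmul_eq_dd (A : Rep.{u, u, u} k G) (c : G × G → A) (hc : c ∈ cocycles₂ A) :
    Fintype.card G • c = dd A (fun s => ∑ u : G, c (s, u)) := by
  classical
  rw [← isC2_iff] at hc
  funext ⟨s, t⟩
  simp only [dd, Pi.smul_apply]
  rw [map_sum]
  have h1 : ∀ u, A.ρ s (c (t, u)) = c (s * t, u) + c (s, t) - c (s, t * u) := fun u => by
    rw [hc s t u]; abel
  have h2 : ∑ u : G, c (s, t * u) = ∑ u : G, c (s, u) :=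
    Fintype.sum_equiv (Equiv.mulLeft t) _ _ (fun u => rfl)
  simp only [h1, Finset.sum_sub_distrib, Finset.sum_add_distrib, Finset.sum_const,
    Finset.card_univ, h2]
  abel

theorem card_nsmul_mem_coboundaries₂ (A : Rep.{u, u, u} k G) (c : G × G → A)
    (hc : c ∈ cocycles₂ A) : Fintype.card G • c ∈ coboundaries₂ A :=
  mem_coboundaries₂_of_eq_dd _ (card_nsmul_eq_dd A c hc)

end U1

/-! ### (U2) the elementary form: a cocycle whose valuation is divisible by `|H|` -/

section Elem

variable {H : Type} [Group H] [Fintype H]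

/-- a 2-cocycle `c` of a finite group `H` with values in `B`, such that `|H|` divides `v (c p)` for an
`H`-invariant surjective `v : B → ℤ`, is a coboundary as soon as the cocycles with values in
`ker v` are coboundaries. -/
theorem mem_coboundaries₂_of_dvd (B : Rep.{0, 0, 0} ℤ H) (v : B →+ ℤ)
    (hv : ∀ (h : H) (b : B), v (B.ρ h b) = v b) (hsurj : Function.Surjective v)
    (hU : ∀ c ∈ cocycles₂ B, (∀ p, v (c p) = 0) → c ∈ coboundaries₂ B)
    (c : H × H → B) (hc : c ∈ cocycles₂ B)
    (hdvd : ∀ p, (Fintype.card H : ℤ) ∣ v (c p)) : c ∈ coboundaries₂ B := by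
  classical
  obtain ⟨π, hπ⟩ := hsurj 1
  have hm : (Fintype.card H : ℤ) ≠ 0 := by exact_mod_cast Fintype.card_ne_zero
  -- the averaging cochain and its valuation
  set b₀ : H → B := fun s => ∑ u : H, c (s, u) with hb₀
  have hb₀dvd : ∀ s, (Fintype.card H : ℤ) ∣ v (b₀ s) := fun s => by
    rw [hb₀, map_sum]
    exact Finset.dvd_sum fun u _ => hdvd (s, u)
  choose β hβ using hb₀dvd
  set b₁ : H → B := fun s => β s • π with hb₁
  have hvb₁ : ∀ s, v (b₁ s) = β s := fun s => by
    rw [hb₁, map_zsmul, hπ, smul_eq_mul, mul_one]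
  -- `c - d b₁` has valuation zero
  have hc1 : c - dd B b₁ ∈ cocycles₂ B :=
    sub_mem hc ((isC2_iff _).1 (isC2_dd b₁))
  have hv0 : ∀ p, v ((c - dd B b₁) p) = 0 := by
    rintro ⟨s, t⟩
    apply mul_left_cancel₀ hm
    have h1 := congrFun (card_nsmul_eq_dd B c hc) (s, t)
    simp only [Pi.smul_apply, dd] at h1
    have h2 := congrArg v h1
    rw [map_nsmul, map_add, map_sub, hv, nsmul_eq_mul] at h2
    simp only [Pi.sub_apply, dd, map_sub, map_add, hv, hvb₁, mul_zero]
    rw [hβ t, hβ (s * t), hβ s] at h2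
    linarith
  have h3 := hU _ hc1 hv0
  have h4 : c = (c - dd B b₁) + dd B b₁ := by abel
  rw [h4]
  exact add_mem h3 (mem_coboundaries₂_of_eq_dd b₁ rfl)

end Elem

/-! ### inflation and restriction -/

section InfRes

variable {k G : Type u} [CommRing k] [Group G] (A : Rep.{u, u, u} k G)

/-- inflation `H²(G ⧸ N, A^N) ⟶ H²(G, A)` (`= (InfRes9.H2InfRes A N).f`). -/
noncomputable abbrev infl (N : Subgroup G) [N.Normal] :
    groupCohomology (A.quotientToInvariants N) 2 ⟶ groupCohomology A 2 :=
  map (QuotientGroup.mk' N) (ofHom <| A.ρ.quotientToInvariants_lift N) 2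

/-- restriction `H²(G, A) ⟶ H²(N, A)` (`= (InfRes9.H2InfRes A N).g`). -/
noncomputable abbrev rest (N : Subgroup G) :
    groupCohomology A 2 ⟶ groupCohomology (res N.subtype A) 2 :=
  map N.subtype (𝟙 (res N.subtype A)) 2

theorem H2InfRes_f_eq (N : Subgroup G) [N.Normal] : (H2InfRes A N).f = infl A N := rfl

theorem H2InfRes_g_eq (N : Subgroup G) [N.Normal] : (H2InfRes A N).g = rest A N := rfl

/-- the inflated-then-restricted cocycle, pointwise. -/
theorem rest_infl_H2π_apply (Nu NL : Subgroup G) [Nu.Normal]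
    (x : cocycles₂ (A.quotientToInvariants Nu)) :
    (rest A NL).hom ((infl A Nu).hom (H2π _ x)) =
      H2π (res NL.subtype A) (mapCocycles₂ NL.subtype (𝟙 (res NL.subtype A))
        (mapCocycles₂ (QuotientGroup.mk' Nu) (ofHom <| A.ρ.quotientToInvariants_lift Nu) x)) := by
  rw [H2π_comp_map_apply (QuotientGroup.mk' Nu), H2π_comp_map_apply NL.subtype]

/-- the inflated-then-restricted cocycle is a cocycle. -/
theorem infl_rest_mem_cocycles₂ (Nu NL : Subgroup G) [Nu.Normal]
    (x : cocycles₂ (A.quotientToInvariants Nu)) :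
    (fun p : NL × NL => ((x (QuotientGroup.mk (p.1 : G), QuotientGroup.mk (p.2 : G)) :
        A.quotientToInvariants Nu) : A)) ∈ cocycles₂ (res NL.subtype A) := by
  have h := (mapCocycles₂ NL.subtype (𝟙 (res NL.subtype A))
    (mapCocycles₂ (QuotientGroup.mk' Nu) (ofHom <| A.ρ.quotientToInvariants_lift Nu) x)).2
  exact h

/-- criterion for `res_NL ∘ inf_{G/Nu} = 0`, on cocycles. -/
theorem infl_rest_eq_zero_of (Nu NL : Subgroup G) [Nu.Normal]
    (h : ∀ x : cocycles₂ (A.quotientToInvariants Nu),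
      (fun p : NL × NL => ((x (QuotientGroup.mk (p.1 : G), QuotientGroup.mk (p.2 : G)) :
        A.quotientToInvariants Nu) : A)) ∈ coboundaries₂ (res NL.subtype A)) :
    infl A Nu ≫ rest A NL = 0 := by
  rw [← cancel_epi (H2π _), comp_zero]
  refine ModuleCat.hom_ext (LinearMap.ext fun x => ?_)
  show (rest A NL).hom ((infl A Nu).hom (H2π _ x)) = 0
  rw [rest_infl_H2π_apply, H2π_eq_zero_iff]
  exact h x

/-! ### (U3) comparison of the two inflations -/

theorem infl_injective (N : Subgroup G) [N.Normal]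
    (h1 : IsZero (groupCohomology (res N.subtype A) 1)) :
    Function.Injective (infl A N).hom := by
  have := H2InfRes_mono A N h1
  exact (ModuleCat.mono_iff_injective _).1 this

/-- **(U3)** if `res_NL ∘ inf_{G/Nu} = 0` and `H¹(NL, A) = 0`, every class inflated from `G ⧸ Nu`
is inflated from `G ⧸ NL`. -/
theorem range_infl_le (Nu NL : Subgroup G) [Nu.Normal] [NL.Normal]
    (h1 : IsZero (groupCohomology (res NL.subtype A) 1))
    (h0 : infl A Nu ≫ rest A NL = 0) :
    LinearMap.range (infl A Nu).hom ≤ LinearMap.range (infl A NL).hom := by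
  rintro _ ⟨x, rfl⟩
  have hex := H2InfRes_exact A NL h1
  rw [ShortComplex.moduleCat_exact_iff] at hex
  have hx : (rest A NL).hom ((infl A Nu).hom x) = 0 := by
    have := congrArg (fun f => f.hom x) h0
    exact this
  obtain ⟨y, hy⟩ := hex ((infl A Nu).hom x) hx
  exact ⟨y, hy⟩

/-- the comparison map `H²(G ⧸ Nu, A^Nu) → H²(G ⧸ NL, A^NL)` compatible with the inflations. -/
theorem exists_comparison (Nu NL : Subgroup G) [Nu.Normal] [NL.Normal]
    (h1 : IsZero (groupCohomology (res NL.subtype A) 1))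
    (h0 : infl A Nu ≫ rest A NL = 0) :
    ∃ φ : groupCohomology (A.quotientToInvariants Nu) 2 →ₗ[k]
        groupCohomology (A.quotientToInvariants NL) 2,
      ∀ x, (infl A NL).hom (φ x) = (infl A Nu).hom x := by
  have hinj := infl_injective A NL h1
  let E := LinearEquiv.ofInjective (infl A NL).hom hinj
  have hmem : ∀ x, (infl A Nu).hom x ∈ LinearMap.range (infl A NL).hom := fun x =>
    range_infl_le A Nu NL h1 h0 ⟨x, rfl⟩
  refine ⟨E.symm.toLinearMap ∘ₗ (infl A Nu).hom.codRestrict _ hmem, fun x => ?_⟩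
  have := E.apply_symm_apply ((infl A Nu).hom.codRestrict _ hmem x)
  exact congrArg Subtype.val this

/-- the comparison map is injective when `H¹(Nu, A) = 0`. -/
theorem exists_comparison_injective (Nu NL : Subgroup G) [Nu.Normal] [NL.Normal]
    (h1 : IsZero (groupCohomology (res NL.subtype A) 1))
    (h1u : IsZero (groupCohomology (res Nu.subtype A) 1))
    (h0 : infl A Nu ≫ rest A NL = 0) :
    ∃ φ : groupCohomology (A.quotientToInvariants Nu) 2 →ₗ[k]
        groupCohomology (A.quotientToInvariants NL) 2,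
      Function.Injective φ ∧ ∀ x, (infl A NL).hom (φ x) = (infl A Nu).hom x := by
  obtain ⟨φ, hφ⟩ := exists_comparison A Nu NL h1 h0
  refine ⟨φ, fun x y hxy => ?_, hφ⟩
  apply infl_injective A Nu h1u
  rw [← hφ x, ← hφ y, hxy]

/-- lower bound: `|H²(G ⧸ Nu, A^Nu)| ≤ |H²(G ⧸ NL, A^NL)|`. -/
theorem card_le (Nu NL : Subgroup G) [Nu.Normal] [NL.Normal]
    (h1 : IsZero (groupCohomology (res NL.subtype A) 1))
    (h1u : IsZero (groupCohomology (res Nu.subtype A) 1))
    (h0 : infl A Nu ≫ rest A NL = 0)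
    [Finite (groupCohomology (A.quotientToInvariants NL) 2)] :
    Nat.card (groupCohomology (A.quotientToInvariants Nu) 2) ≤
      Nat.card (groupCohomology (A.quotientToInvariants NL) 2) := by
  obtain ⟨φ, hφ, -⟩ := exists_comparison_injective A Nu NL h1 h1u h0
  exact Nat.card_le_card_of_injective φ hφ

/-- **(U4)** with the upper bound `|H²(G ⧸ NL, A^NL)| ≤ |H²(G ⧸ Nu, A^Nu)|` the comparison map is an
isomorphism: `H²(L/K) ≅ H²(K_n/K)` compatibly with the inflations to `H²(M/K)`. -/
theorem exists_equiv (Nu NL : Subgroup G) [Nu.Normal] [NL.Normal]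
    (h1 : IsZero (groupCohomology (res NL.subtype A) 1))
    (h1u : IsZero (groupCohomology (res Nu.subtype A) 1))
    (h0 : infl A Nu ≫ rest A NL = 0)
    [Finite (groupCohomology (A.quotientToInvariants NL) 2)]
    (hle : Nat.card (groupCohomology (A.quotientToInvariants NL) 2) ≤
      Nat.card (groupCohomology (A.quotientToInvariants Nu) 2)) :
    ∃ φ : groupCohomology (A.quotientToInvariants Nu) 2 ≃ₗ[k]
        groupCohomology (A.quotientToInvariants NL) 2,
      ∀ x, (infl A NL).hom (φ x) = (infl A Nu).hom x := by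
  obtain ⟨φ, hφ, hc⟩ := exists_comparison_injective A Nu NL h1 h1u h0
  have : Finite (groupCohomology (A.quotientToInvariants Nu) 2) := Finite.of_injective φ hφ
  have hbij : Function.Bijective φ :=
    (Nat.bijective_iff_injective_and_card φ).2
      ⟨hφ, le_antisymm (Nat.card_le_card_of_injective φ hφ) hle⟩
  exact ⟨LinearEquiv.ofBijective φ hbij, hc⟩

/-- the two inflations have the same image. -/
theorem range_infl_eq (Nu NL : Subgroup G) [Nu.Normal] [NL.Normal]
    (h1 : IsZero (groupCohomology (res NL.subtype A) 1))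
    (h1u : IsZero (groupCohomology (res Nu.subtype A) 1))
    (h0 : infl A Nu ≫ rest A NL = 0)
    [Finite (groupCohomology (A.quotientToInvariants NL) 2)]
    (hle : Nat.card (groupCohomology (A.quotientToInvariants NL) 2) ≤
      Nat.card (groupCohomology (A.quotientToInvariants Nu) 2)) :
    LinearMap.range (infl A Nu).hom = LinearMap.range (infl A NL).hom := by
  refine le_antisymm (range_infl_le A Nu NL h1 h0) ?_
  obtain ⟨φ, hφ⟩ := exists_equiv A Nu NL h1 h1u h0 hle
  rintro _ ⟨y, rfl⟩
  exact ⟨φ.symm y, by rw [← hφ, LinearEquiv.apply_symm_apply]⟩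

end InfRes

/-! ### (U2) the unramified class dies -/

section U2

variable {G : Type} [Group G] (A : Rep.{0, 0, 0} ℤ G)

/-- **(U2)** `res_NL ∘ inf_{G/Nu} = 0` on `H²`. -/
theorem res_inf_eq_zero (Nu NL : Subgroup G) [Nu.Normal] [Finite NL]
    (v : A →+ ℤ) (hv : ∀ g ∈ NL, ∀ a : A, v (A.ρ g a) = v a) (hsurj : Function.Surjective v)
    (e : ℕ) (he : ∀ a : A, (∀ g ∈ Nu, A.ρ g a = a) → (e : ℤ) ∣ v a) (hcard : Nat.card NL ∣ e)
    (hU : ∀ c ∈ cocycles₂ (res NL.subtype A), (∀ p, v (c p) = 0) →
      c ∈ coboundaries₂ (res NL.subtype A)) :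
    infl A Nu ≫ rest A NL = 0 := by
  classical
  let _ : Fintype NL := Fintype.ofFinite NL
  refine infl_rest_eq_zero_of A Nu NL fun x => ?_
  have hx := infl_rest_mem_cocycles₂ A Nu NL x
  refine mem_coboundaries₂_of_dvd (res NL.subtype A) v (fun h b => hv h h.2 b) hsurj hU _
    hx (fun p => ?_)
  rw [Nat.card_eq_fintype_card] at hcard
  refine dvd_trans (Int.natCast_dvd_natCast.2 hcard) (he _ fun g hg => ?_)
  exact (x (QuotientGroup.mk (p.1 : G), QuotientGroup.mk (p.2 : G))).2 ⟨g, hg⟩

/-- **(U2)+(U3)+(U4) assembled**: the abstract step of the local class formation. -/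
theorem exists_equiv_of_unramified (Nu NL : Subgroup G) [Nu.Normal] [NL.Normal] [Finite NL]
    (v : A →+ ℤ) (hv : ∀ g ∈ NL, ∀ a : A, v (A.ρ g a) = v a) (hsurj : Function.Surjective v)
    (e : ℕ) (he : ∀ a : A, (∀ g ∈ Nu, A.ρ g a = a) → (e : ℤ) ∣ v a) (hcard : Nat.card NL ∣ e)
    (hU : ∀ c ∈ cocycles₂ (res NL.subtype A), (∀ p, v (c p) = 0) →
      c ∈ coboundaries₂ (res NL.subtype A))
    (h1 : IsZero (groupCohomology (res NL.subtype A) 1))
    (h1u : IsZero (groupCohomology (res Nu.subtype A) 1))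
    [Finite (groupCohomology (A.quotientToInvariants NL) 2)]
    (hle : Nat.card (groupCohomology (A.quotientToInvariants NL) 2) ≤
      Nat.card (groupCohomology (A.quotientToInvariants Nu) 2)) :
    ∃ φ : groupCohomology (A.quotientToInvariants Nu) 2 ≃ₗ[ℤ]
        groupCohomology (A.quotientToInvariants NL) 2,
      ∀ x, (infl A NL).hom (φ x) = (infl A Nu).hom x :=
  exists_equiv A Nu NL h1 h1u (res_inf_eq_zero A Nu NL v hv hsurj e he hcard hU) hle

end U2

end Fermat.Agent.S55.LocInv80.Abs
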