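/-
S55 / 22-LOC-INV, part 22a (helper80): vanishing of `H²` of a finite cyclic group on a
subrepresentation from "invariants are norms", in cocycle form.

`C` finite cyclic generated by `g`, `B' : Rep k C`, `W ≤ B'` a `C`-stable submodule such that every
`C`-invariant element of `W` is the norm `∑ h, h • w` of some `w ∈ W`.  Then every 2-cocycle of `C`
with values in `W` is the coboundary of a 1-cochain with values in `W`.
Mathlib only (`Rep.FiniteCyclicGroup.groupCohomologyπEven`).  No sorry.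
-/
import Mathlib

set_option autoImplicit false

open CategoryTheory groupCohomology Rep Limits

universe u

namespace Fermat.Agent.S55.LocInv80.CyclicH2

section Comm

variable {k C : Type u} [CommRing k] [CommGroup C] [Fintype C] (B : Rep.{u, u, u} k C) (g : C)
  (hg : ∀ x, x ∈ Subgroup.zpowers g)

include hg in
/-- `H²(C, B) = 0` when every invariant is a norm (`C` finite cyclic, commutative form). -/
theorem isZero_H2_comm (hnorm : ∀ u : B, (∀ h : C, B.ρ h u = u) → ∃ w : B, ∑ h : C, B.ρ h w = u) :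
    IsZero (groupCohomology B 2) := by
  have : NeZero 2 := ⟨two_ne_zero⟩
  rw [ModuleCat.isZero_iff_subsingleton]
  have h0 : Epi ((Rep.FiniteCyclicGroup.normHomCompSub B g).moduleCatCyclesIso.inv ≫
      (Rep.FiniteCyclicGroup.normHomCompSub B g).homologyπ ≫
        (Rep.FiniteCyclicGroup.groupCohomologyIsoEven B g hg 2 even_two).inv) :=
    epi_comp' inferInstance (epi_comp' inferInstance inferInstance)
  have h1 : Function.Surjective (Rep.FiniteCyclicGroup.groupCohomologyπEven B g hg 2 even_two) :=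
    (ModuleCat.epi_iff_surjective _).1 h0
  have key : ∀ z : groupCohomology B 2, z = 0 := fun z => by
    obtain ⟨x, rfl⟩ := h1 z
    rw [Rep.FiniteCyclicGroup.groupCohomologyπEven_eq_zero_iff]
    have hx : ∀ h : C, B.ρ h x.1 = x.1 := by
      have hx2 : (Rep.applyAsHom B g - 𝟙 B).hom.toLinearMap x.1 = 0 := LinearMap.mem_ker.1 x.2
      have hgx : B.ρ g x.1 = x.1 := by
        have : B.ρ g x.1 - x.1 = 0 := hx2
        exact sub_eq_zero.1 this
      exact (Representation.mem_invariants_iff_of_forall_mem_zpowers B.ρ g hg x.1).2 hgx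
    obtain ⟨w, hw⟩ := hnorm x.1 hx
    refine ⟨w, ?_⟩
    rw [← hw]
    simp [Rep.norm, Representation.norm]
  exact ⟨fun a b => (key a).trans (key b).symm⟩

end Comm

section General

variable {k C : Type u} [CommRing k] [Group C] [Fintype C]

/-- `H²(C, B) = 0` when every invariant is a norm (`C` finite cyclic, no `CommGroup` instance). -/
theorem isZero_H2 (B : Rep.{u, u, u} k C) (g : C) (hg : ∀ x, x ∈ Subgroup.zpowers g)
    (hnorm : ∀ u : B, (∀ h : C, B.ρ h u = u) → ∃ w : B, ∑ h : C, B.ρ h w = u) :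
    IsZero (groupCohomology B 2) := by
  have hcyc : IsCyclic C := ⟨g, hg⟩
  let _ : CommGroup C := IsCyclic.commGroup
  exact isZero_H2_comm B g hg hnorm

/-- **cocycle form.**  `W ≤ B'` a `C`-stable submodule whose invariants are norms from `W`: every
2-cocycle with values in `W` is a coboundary. -/
theorem mem_coboundaries₂_of_norm (B' : Rep.{u, u, u} k C) (g : C)
    (hg : ∀ x, x ∈ Subgroup.zpowers g) (W : Submodule k B')
    (hW : ∀ h : C, W ≤ W.comap (B'.ρ h))
    (hnorm : ∀ u ∈ W, (∀ h : C, B'.ρ h u = u) → ∃ w ∈ W, ∑ h : C, B'.ρ h w = u)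
    (c : C × C → B') (hc : c ∈ cocycles₂ B') (hcW : ∀ p, c p ∈ W) :
    c ∈ coboundaries₂ B' := by
  classical
  set B : Rep.{u, u, u} k C := Rep.of (B'.ρ.subrepresentation W hW) with hB
  have hρ : ∀ (h : C) (x : B), ((B.ρ h x : W) : B') = B'.ρ h (x : W) := fun h x => rfl
  have hz : IsZero (groupCohomology B 2) := by
    refine isZero_H2 B g hg fun u hu => ?_
    obtain ⟨w, hwW, hw⟩ := hnorm (u : W) (u : W).2 (fun h => by
      have := congrArg Subtype.val (hu h)
      rw [hρ] at this
      exact this)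
    refine ⟨(⟨w, hwW⟩ : W), ?_⟩
    apply Subtype.ext
    rw [← hw]
    have : ((∑ h : C, B.ρ h (⟨w, hwW⟩ : W) : W) : B') = ∑ h : C, ((B.ρ h (⟨w, hwW⟩ : W) : W) : B') :=
      Submodule.coe_sum W _ _
    rw [this]
    rfl
  -- corestrict the cocycle
  let cB : C × C → B := fun p => (⟨c p, hcW p⟩ : W)
  have hcB : cB ∈ cocycles₂ B := by
    rw [mem_cocycles₂_iff]
    intro a b d
    apply Subtype.ext
    have := (mem_cocycles₂_iff c).1 hc a b d
    exact this
  have h0 : H2π B ⟨cB, hcB⟩ = 0 :=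
    @Subsingleton.elim _ (ModuleCat.subsingleton_of_isZero hz) _ _
  rw [H2π_eq_zero_iff] at h0
  obtain ⟨b, hb⟩ := h0
  refine ⟨fun x => ((b x : W) : B'), ?_⟩
  funext p
  have := congrArg (fun z : W => (z : B')) (congrFun hb p)
  rw [d₁₂_hom_apply] at this ⊢
  exact this

/-- the kernel of an additive map compatible with scalars, as a submodule of a representation. -/
def kerSub {X : Type*} [AddCommGroup X] (B' : Rep.{u, u, u} k C) (v : B' →+ X)
    (hsmul : ∀ (r : k) (x : B'), v x = 0 → v (r • x) = 0) : Submodule k B' where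
  carrier := {x | v x = 0}
  add_mem' := fun {a b} ha hb => by
    have ha' : v a = 0 := ha
    have hb' : v b = 0 := hb
    show v (a + b) = 0
    rw [map_add, ha', hb', add_zero]
  zero_mem' := map_zero v
  smul_mem' := fun n x hx => hsmul n x hx

omit [Fintype C] in
theorem mem_kerSub {X : Type*} [AddCommGroup X] (B' : Rep.{u, u, u} k C) (v : B' →+ X)
    (hsmul : ∀ (r : k) (x : B'), v x = 0 → v (r • x) = 0) (x : B') :
    x ∈ kerSub B' v hsmul ↔ v x = 0 := Iff.rfl

/-- **cocycle form with `W = ker v`.** -/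
theorem mem_coboundaries₂_of_norm_ker {X : Type*} [AddCommGroup X] (B' : Rep.{u, u, u} k C)
    (g : C) (hg : ∀ x, x ∈ Subgroup.zpowers g) (v : B' →+ X)
    (hsmul : ∀ (r : k) (x : B'), v x = 0 → v (r • x) = 0)
    (hv : ∀ (h : C) (x : B'), v (B'.ρ h x) = v x)
    (hnorm : ∀ u : B', v u = 0 → (∀ h : C, B'.ρ h u = u) →
      ∃ w : B', v w = 0 ∧ ∑ h : C, B'.ρ h w = u)
    (c : C × C → B') (hc : c ∈ cocycles₂ B') (hcv : ∀ p, v (c p) = 0) :
    c ∈ coboundaries₂ B' := by
  refine mem_coboundaries₂_of_norm B' g hg (kerSub B' v hsmul) (fun h x hx => ?_)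
    (fun u hu hinv => ?_) c hc hcv
  · rw [Submodule.mem_comap, mem_kerSub, hv]
    exact hx
  · obtain ⟨w, hw, hsum⟩ := hnorm u hu hinv
    exact ⟨w, hw, hsum⟩

end General

/-- **cocycle form over `ℤ`.** -/
theorem mem_coboundaries₂_of_norm_int {C : Type} [Group C] [Fintype C] (B' : Rep.{0, 0, 0} ℤ C)
    (g : C) (hg : ∀ x, x ∈ Subgroup.zpowers g) (v : B' →+ ℤ)
    (hv : ∀ (h : C) (x : B'), v (B'.ρ h x) = v x)
    (hnorm : ∀ u : B', v u = 0 → (∀ h : C, B'.ρ h u = u) →
      ∃ w : B', v w = 0 ∧ ∑ h : C, B'.ρ h w = u)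
    (c : C × C → B') (hc : c ∈ cocycles₂ B') (hcv : ∀ p, v (c p) = 0) :
    c ∈ coboundaries₂ B' :=
  mem_coboundaries₂_of_norm_ker B' g hg v (fun r x hx => by
    have h2 := map_zsmul v r x
    rw [hx, smul_zero] at h2
    refine Eq.trans (congrArg v ?_) h2
    exact int_smul_eq_zsmul B'.hV2 r x) hv hnorm c hc hcv

end Fermat.Agent.S55.LocInv80.CyclicH2
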