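/-
S55 / 22-LOC-INV, part 22a (helper80): the step of the local class formation, for a member of
helper51's local class `LocDev51.LocalClass` (`A ≅ Eˣ` for a finite group acting faithfully and
isometrically on a local field `E`).

`G` finite, `A` in the local class, `Nu NL ⊴ G` with `G ⧸ Nu` cyclic and `[G : Nu] = [G : NL]`,
`v : A →+ ℤ` as in `Abs.res_inf_eq_zero`.  Then
`|H²(G ⧸ NL, A^NL)| = [G : NL]`, and `H²(G ⧸ Nu, A^Nu) ≃ H²(G ⧸ NL, A^NL)` compatibly with the
inflations to `H²(G, A)` ("every class of `H²(L/K)` is unramified").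
Upper bound, cyclic count and Hilbert 90 come from `LocDev51` (devissage over LocH28's norm index).
No sorry.
-/
import Mathlib
import Fermat.Agent.S55.LocInv80.Abs
import Fermat.Agent.S55.LocInv80.CyclicH2
import Fermat.Agent.S55.LocDev51.Devissage

set_option autoImplicit false

open CategoryTheory groupCohomology Rep Limits

namespace Fermat.Agent.S55.LocInv80.GField

open Fermat.Agent.S55.LocInv80.Abs Fermat.Agent.S55.LocDev51

variable {G : Type} [Group G] [Finite G] {A : Rep.{0, 0, 0} ℤ G}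

/-- Hilbert 90 for every subgroup, for members of the local class. -/
theorem isZero_H1_res (hA : LocalClass G A) (H : Subgroup G) :
    IsZero (groupCohomology (res H.subtype A) 1) :=
  (localClass_devissage (closed_localClass.res G A hA H)).1

/-- upper bound. -/
theorem card_H2_quotient_dvd (hA : LocalClass G A) (N : Subgroup G) [N.Normal] :
    Nat.card (groupCohomology (A.quotientToInvariants N) 2) ∣ Nat.card (G ⧸ N) :=
  (localClass_devissage (closed_localClass.quot G A hA N)).2

theorem finite_H2_quotient (hA : LocalClass G A) (N : Subgroup G) [N.Normal] :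
    Finite (groupCohomology (A.quotientToInvariants N) 2) := by
  have hd := card_H2_quotient_dvd hA N
  have hpos : 0 < Nat.card (G ⧸ N) := Nat.card_pos
  have : Nat.card (groupCohomology (A.quotientToInvariants N) 2) ≠ 0 := fun h0 => by
    rw [h0, zero_dvd_iff] at hd; omega
  exact Nat.finite_of_card_ne_zero this

omit [Finite G] in
/-- cyclic count. -/
theorem card_H2_quotient_of_cyclic (hA : LocalClass G A) (N : Subgroup G) [N.Normal]
    [IsCyclic (G ⧸ N)] :
    Nat.card (groupCohomology (A.quotientToInvariants N) 2) = Nat.card (G ⧸ N) :=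
  (localClass_cyclic (closed_localClass.quot G A hA N)).2

/-- **the step of the local class formation.** -/
theorem exists_equiv_and_card (hA : LocalClass G A) (Nu NL : Subgroup G) [Nu.Normal] [NL.Normal]
    [IsCyclic (G ⧸ Nu)] (hidx : Nat.card (G ⧸ Nu) = Nat.card (G ⧸ NL))
    (v : A →+ ℤ) (hv : ∀ g ∈ NL, ∀ a : A, v (A.ρ g a) = v a) (hsurj : Function.Surjective v)
    (e : ℕ) (he : ∀ a : A, (∀ g ∈ Nu, A.ρ g a = a) → (e : ℤ) ∣ v a) (hcard : Nat.card NL ∣ e)
    (hU : ∀ c ∈ cocycles₂ (res NL.subtype A), (∀ p, v (c p) = 0) →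
      c ∈ coboundaries₂ (res NL.subtype A)) :
    Nat.card (groupCohomology (A.quotientToInvariants NL) 2) = Nat.card (G ⧸ NL) ∧
    ∃ ψ : groupCohomology (A.quotientToInvariants Nu) 2 ≃ₗ[ℤ]
        groupCohomology (A.quotientToInvariants NL) 2,
      ∀ x, (infl A NL).hom (ψ x) = (infl A Nu).hom x := by
  have hfin := finite_H2_quotient hA NL
  have hcyc := card_H2_quotient_of_cyclic hA Nu
  have hle : Nat.card (groupCohomology (A.quotientToInvariants NL) 2) ≤
      Nat.card (groupCohomology (A.quotientToInvariants Nu) 2) := by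
    rw [hcyc, hidx]
    exact Nat.le_of_dvd Nat.card_pos (card_H2_quotient_dvd hA NL)
  obtain ⟨ψ, hψ⟩ := exists_equiv_of_unramified A Nu NL v hv hsurj e he hcard hU
    (isZero_H1_res hA NL) (isZero_H1_res hA Nu) hle
  refine ⟨?_, ψ, hψ⟩
  rw [← Nat.card_congr ψ.toEquiv, hcyc, hidx]

/-! ### the concrete form for a local G-field -/

section Concrete

attribute [local instance] Units.mulDistribMulActionRight

open Fermat.Agent.S55.LocInv80.CyclicH2

variable {Q E : Type} [Group Q] [NormedField E] [MulSemiringAction Q E]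

/-- **the step of the local class formation for a local G-field `(Q, E)`**: `Nu NL ⊴ Q`, `Q ⧸ Nu`
cyclic, `[Q : Nu] = [Q : NL]`, `v` the valuation of `E`, `e ∣ v` on `(Eˣ)^Nu`, `|NL| ∣ e`,
`NL = ⟨φ⟩` and every `NL`-fixed unit (`v = 0`) is the `NL`-norm of a unit. -/
theorem step (h : IsLocalGField Q E) (Nu NL : Subgroup Q) [Nu.Normal] [NL.Normal]
    [IsCyclic (Q ⧸ Nu)] (hidx : Nat.card (Q ⧸ Nu) = Nat.card (Q ⧸ NL))
    (v : Additive Eˣ →+ ℤ)
    (hv : ∀ (σ : Q) (x : Eˣ), v (Additive.ofMul (σ • x)) = v (Additive.ofMul x))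
    (hsurj : Function.Surjective v) (e : ℕ)
    (he : ∀ x : Eˣ, (∀ σ ∈ Nu, σ • x = x) → (e : ℤ) ∣ v (Additive.ofMul x))
    (hcard : Nat.card NL ∣ e) (φ : Q) (hφ : NL = Subgroup.zpowers φ) [Fintype NL]
    (hnorm : ∀ u : Eˣ, (∀ σ ∈ NL, σ • u = u) → v (Additive.ofMul u) = 0 →
      ∃ w : Eˣ, v (Additive.ofMul w) = 0 ∧ ∏ σ : NL, ((σ : Q) • w) = u) :
    Nat.card (groupCohomology ((unitsRep Q E).quotientToInvariants NL) 2) = Nat.card (Q ⧸ NL) ∧
    ∃ ψ : groupCohomology ((unitsRep Q E).quotientToInvariants Nu) 2 ≃ₗ[ℤ]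
        groupCohomology ((unitsRep Q E).quotientToInvariants NL) 2,
      ∀ x, (infl (unitsRep Q E) NL).hom (ψ x) = (infl (unitsRep Q E) Nu).hom x := by
  classical
  have := h.finite
  have hρ : ∀ (σ : Q) (a : unitsRep Q E), (unitsRep Q E).ρ σ a = ofU (σ • toU a) := fun σ a => rfl
  refine exists_equiv_and_card (localClass_unitsRep h) Nu NL hidx v (fun g _ a => ?_) hsurj e
    (fun a ha => ?_) hcard ?_
  · rw [hρ]
    exact hv g (toU a)
  · refine he (toU a) fun σ hσ => ?_
    have h2 := ha σ hσ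
    rw [hρ] at h2
    exact ofU_injective h2
  · -- the cocycle hypothesis from cyclicity + norms
    intro c hc hcv
    have hφmem : φ ∈ NL := by rw [hφ]; exact Subgroup.mem_zpowers φ
    let g : NL := ⟨φ, hφmem⟩
    have hg : ∀ x : NL, x ∈ Subgroup.zpowers g := by
      intro x
      have hx : (x : Q) ∈ Subgroup.zpowers φ := by rw [← hφ]; exact x.2
      obtain ⟨n, hn⟩ := Subgroup.mem_zpowers_iff.1 hx
      refine Subgroup.mem_zpowers_iff.2 ⟨n, Subtype.ext ?_⟩
      rw [Subgroup.coe_zpow]
      exact hn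
    refine mem_coboundaries₂_of_norm_int (res NL.subtype (unitsRep Q E)) g hg v ?_ ?_ c hc hcv
    · intro σ x
      show v ((unitsRep Q E).ρ (σ : Q) x) = v x
      rw [hρ]
      exact hv σ (toU x)
    · intro u hu hinv
      obtain ⟨w, hw0, hw⟩ := hnorm (toU u) (fun σ hσ => by
        have h2 : (unitsRep Q E).ρ σ u = u := hinv ⟨σ, hσ⟩
        rw [hρ] at h2
        exact ofU_injective h2) hu
      refine ⟨ofU w, hw0, ?_⟩
      have h4 : ∀ σ : NL, (res NL.subtype (unitsRep Q E)).ρ σ (ofU w) =
          Additive.ofMul ((σ : Q) • w) := fun σ => rfl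
      simp only [h4]
      have h5 : (∑ σ : NL, Additive.ofMul ((σ : Q) • w) : Additive Eˣ) =
          Additive.ofMul (∏ σ : NL, ((σ : Q) • w)) := (ofMul_prod _ _).symm
      exact h5.trans (congrArg Additive.ofMul hw)

end Concrete

end Fermat.Agent.S55.LocInv80.GField
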