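/-
S55 / 22-LOC-INV, part 22a (helper80): preparation of the `LF q` instance of `GField.step`.

For `K ≤ M` finite over `ℚ_[q]` inside `PadicAlgCl q` (`M` a `K`-algebra via `relAlgebra`):
* `isLocalGField_rel` : `(Gal(M/K), M)` is a local G-field in the sense of `LocDev51`;
* `ordHom M : Additive Mˣ →+ ℤ`, Galois-invariant and surjective;
* `prod_subgroup_eq_prod_range` : a product over a finite cyclic subgroup `⟨φ⟩` of order `e` is the
  product over `φ ^ i`, `i < e`.
No sorry.
-/
import Mathlib
import Fermat.Agent.S55.LocField17.LocHAdapt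
import Fermat.Agent.S55.LocDev51.Local

set_option autoImplicit false
set_option linter.unusedSectionVars false

noncomputable section

namespace Fermat.Agent.S55.LocInv80.LFPrep

open Fermat.Agent.S55.LocField17 Fermat.Agent.S55.LocDev51

variable {q : ℕ} [Fact q.Prime]

/-! ### a product over a cyclic subgroup -/

theorem prod_subgroup_eq_prod_range {G X : Type*} [Group G] [CommMonoid X] [MulAction G X]
    (N : Subgroup G) [Fintype N] (φ : G) (hφ : N = Subgroup.zpowers φ) (e : ℕ)
    (he : Nat.card N = e) (w : X) :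
    ∏ σ : N, ((σ : G) • w) = ∏ i ∈ Finset.range e, (φ ^ i) • w := by
  classical
  subst hφ
  have hord : orderOf φ = e := by rw [← he, Nat.card_zpowers]
  have hpos : 0 < e := by rw [← he]; exact Nat.card_pos
  have hfin : IsOfFinOrder φ := by
    rw [← orderOf_pos_iff, hord]; exact hpos
  symm
  refine Finset.prod_bij (fun i _ => (⟨φ ^ i, Subgroup.npow_mem_zpowers φ i⟩ : Subgroup.zpowers φ))
    (fun _ _ => Finset.mem_univ _) ?_ ?_ (fun _ _ => rfl)
  · intro i hi j hj hij
    have h1 : φ ^ i = φ ^ j := congrArg Subtype.val hij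
    rw [Finset.mem_range, ← hord] at hi hj
    exact pow_injOn_Iio_orderOf hi hj h1
  · rintro ⟨σ, hσ⟩ -
    have hk := (hfin.mem_zpowers_iff_mem_range_orderOf).1 hσ
    rw [Finset.mem_image] at hk
    obtain ⟨i, hi, hi2⟩ := hk
    rw [hord] at hi
    exact ⟨i, hi, Subtype.ext hi2⟩

/-! ### the local G-field `(Gal(M/K), M)` -/

section Rel

variable {K M : LF q} [FiniteDimensional ℚ_[q] K] [FiniteDimensional ℚ_[q] M]

theorem isLocalGField_rel (h : K ≤ M) :
    letI := relAlgebra h
    IsLocalGField (M ≃ₐ[K] M) M := by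
  let _ := relAlgebra h
  have := finiteDimensional_rel h
  exact
    { finite := inferInstance
      faithful := inferInstance
      isometric := fun σ x => norm_relAlgEquiv h σ x
      ultrametric := inferInstance
      proper := inferInstance
      nontrivial := ⟨((q : ℕ) : M), norm_pos_iff.2 (natCast_q_ne_zero M), norm_natCast_q_lt_one M⟩ }

end Rel

/-! ### the valuation as an additive map -/

section Ord

variable (M : LF q) [FiniteDimensional ℚ_[q] M]

/-- `ord M` on units, as an additive map `Additive Mˣ →+ ℤ`. -/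
def ordHom : Additive Mˣ →+ ℤ where
  toFun x := ord M ((Additive.toMul x : Mˣ) : M)
  map_zero' := by
    show ord M ((1 : Mˣ) : M) = 0
    rw [Units.val_one, ord_one]
  map_add' x y := by
    show ord M (((Additive.toMul x * Additive.toMul y : Mˣ)) : M) = _
    rw [Units.val_mul, ord_mul (Units.ne_zero _) (Units.ne_zero _)]

theorem ordHom_apply (x : Mˣ) : ordHom M (Additive.ofMul x) = ord M (x : M) := rfl

theorem ordHom_surjective : Function.Surjective (ordHom M) := by
  intro m
  have hπ : (unif M) ≠ 0 := by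
    intro h0
    have := (isUnif_unif M).norm_pos
    rw [h0] at this
    simp at this
  refine ⟨Additive.ofMul ((Units.mk0 (unif M) hπ) ^ m), ?_⟩
  rw [ordHom_apply, Units.val_zpow_eq_zpow_val, Units.val_mk0, ord_unif_zpow]

/-- `ord M` only depends on the norm. -/
theorem ord_eq_of_norm_eq {x y : M} (hx : x ≠ 0) (hy : y ≠ 0)
    (h : ‖(x : PadicAlgCl q)‖ = ‖(y : PadicAlgCl q)‖) : ord M x = ord M y := by
  have h1 := norm_eq_zpow_ord hx
  have h2 := norm_eq_zpow_ord hy
  rw [h, h2] at h1
  exact (zpow_unifNorm_injective M h1).symm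

theorem ordHom_eq_zero_iff (x : Mˣ) :
    ordHom M (Additive.ofMul x) = 0 ↔ ‖((x : M) : PadicAlgCl q)‖ = 1 := by
  rw [ordHom_apply]
  exact ord_eq_zero_iff (Units.ne_zero x)

end Ord

end Fermat.Agent.S55.LocInv80.LFPrep
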