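/-
S55 / 22-LOC-INV, part 22a (helper80): the `LF q` instance of the local class formation step, for
the relative Galois group `Gal(M/K)` (`M = L · K_n`, `n = [L : K]`).

`K ≤ L` finite over `ℚ_[q]` inside `Ω = PadicAlgCl q`, `L` stable under `Gal(Ω/K)` (i.e. `L / K`
Galois).  With `M = L ⊔ unr q K n`, `Q = Gal(M/K)` (for the `K`-algebra structure
`LocField17.relAlgebra`), `NL = Gal(M/L)`, `Nu = Gal(M/K_n)` (as `fixSub`):
`|H²(Q ⧸ NL, (Mˣ)^NL)| = [L : K]` and `H²(Q ⧸ Nu, (Mˣ)^Nu) ≃ H²(Q ⧸ NL, (Mˣ)^NL)` compatibly with the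
inflations to `H²(Q, Mˣ)`: every class of `H²(L/K)` is unramified.
No sorry.
-/
import Mathlib
import Fermat.Agent.S55.LocInv80.LFCore

set_option autoImplicit false
set_option linter.unusedSectionVars false
set_option linter.style.haveILetI false

noncomputable section

namespace Fermat.Agent.S55.LocInv80.LF

open Fermat.Agent.S55.LocField17 Fermat.Agent.S55.LocDev51 Fermat.Agent.S55.UnrExt93
  Fermat.Agent.S55.UnrMax66 Fermat.Agent.S55.LocInv80.LFPrep Fermat.Agent.S55.LocInv80.Abs
  Fermat.Agent.S55.LocInv80.LFCore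

attribute [local instance] Units.mulDistribMulActionRight

variable {q : ℕ} [Fact q.Prime]

/-! ### restriction `Gal(Ω/K) → Gal(M/K)` -/

section ResGal

variable {K M : LF q} (hKM : K ≤ M)
  (hst : ∀ σ ∈ K.fixingSubgroup, ∀ x ∈ M, σ x ∈ M)

/-- restriction to `M` of the elements of `Gal(Ω/K)`, for `M` stable. -/
def resGal :
    letI := relAlgebra hKM
    K.fixingSubgroup →* (M ≃ₐ[K] M) := by
  letI := relAlgebra hKM
  exact
    { toFun := fun σ =>
        { toFun := fun x => ⟨(σ : PadicAlgCl q ≃ₐ[ℚ_[q]] PadicAlgCl q) x, hst σ σ.2 x x.2⟩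
          invFun := fun x => ⟨(σ : PadicAlgCl q ≃ₐ[ℚ_[q]] PadicAlgCl q).symm x,
            hst _ (inv_mem σ.2) x x.2⟩
          left_inv := fun x => Subtype.ext (AlgEquiv.symm_apply_apply _ _)
          right_inv := fun x => Subtype.ext (AlgEquiv.apply_symm_apply _ _)
          map_mul' := fun x y => Subtype.ext (map_mul _ _ _)
          map_add' := fun x y => Subtype.ext (map_add _ _ _)
          commutes' := fun k => Subtype.ext
            ((IntermediateField.mem_fixingSubgroup_iff _ _).1 σ.2 k k.2) }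
      map_one' := by ext x; rfl
      map_mul' := fun σ τ => by ext x; rfl }

theorem resGal_apply (σ : K.fixingSubgroup) (x : M) :
    letI := relAlgebra hKM
    ((resGal hKM hst σ x : M) : PadicAlgCl q) =
      (σ : PadicAlgCl q ≃ₐ[ℚ_[q]] PadicAlgCl q) x := rfl

theorem resGal_surjective :
    letI := relAlgebra hKM
    Function.Surjective (resGal hKM hst) := by
  letI := relAlgebra hKM
  intro τ
  let T : M →ₐ[ℚ_[q]] PadicAlgCl q :=
    { toFun := fun x => ((τ x : M) : PadicAlgCl q)
      map_one' := by simp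
      map_mul' := fun x y => by simp
      map_zero' := by simp
      map_add' := fun x y => by simp
      commutes' := fun c => by
        have h1 : algebraMap ℚ_[q] M c = algebraMap K M (algebraMap ℚ_[q] K c) := rfl
        rw [h1, τ.commutes]
        rfl }
  obtain ⟨φ, hφ⟩ := IntermediateField.exists_algHom_of_splits
    (fun s : PadicAlgCl q => ⟨Algebra.IsIntegral.isIntegral (R := ℚ_[q]) s,
      IsAlgClosed.splits _⟩) T
  have hbij : Function.Bijective φ := Algebra.IsAlgebraic.algHom_bijective φ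
  have hσx : ∀ x : M, (AlgEquiv.ofBijective φ hbij) (x : PadicAlgCl q) =
      ((τ x : M) : PadicAlgCl q) := fun x =>
    congrArg (fun f : M →ₐ[ℚ_[q]] PadicAlgCl q => f x) hφ
  have hσK : AlgEquiv.ofBijective φ hbij ∈ K.fixingSubgroup := by
    rw [IntermediateField.mem_fixingSubgroup_iff]
    intro x hx
    have h1 := hσx ⟨x, hKM hx⟩
    refine h1.trans ?_
    exact congrArg Subtype.val (τ.commutes ⟨x, hx⟩)
  exact ⟨⟨AlgEquiv.ofBijective φ hbij, hσK⟩, AlgEquiv.ext fun x => Subtype.ext (hσx x)⟩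

variable [FiniteDimensional ℚ_[q] M]

include hst in
theorem isGalois_rel :
    letI := relAlgebra hKM
    IsGalois K M := by
  letI := relAlgebra hKM
  haveI := finiteDimensional_rel hKM
  refine (IsGalois.tfae.out 0 1).2 ?_
  rw [eq_bot_iff]
  intro x hx
  have hxK : (x : PadicAlgCl q) ∈ K := mem_of_fixed (K := K) fun σ hσ => by
    have h1 := hx ⟨resGal hKM hst ⟨σ, hσ⟩, Subgroup.mem_top _⟩
    exact congrArg Subtype.val h1
  rw [IntermediateField.mem_bot]
  exact ⟨⟨x, hxK⟩, Subtype.ext rfl⟩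

include hst in
theorem card_gal_rel :
    letI := relAlgebra hKM
    Nat.card (M ≃ₐ[K] M) = Module.finrank K M := by
  letI := relAlgebra hKM
  haveI := finiteDimensional_rel hKM
  haveI := isGalois_rel hKM hst
  exact IsGalois.card_aut_eq_finrank K M

end ResGal

/-! ### normality of `fixSub` for a stable field -/

section Normal

variable {K M : LF q} {Q : Type} [Group Q] [MulSemiringAction Q M]

theorem fixSub_normal (r : K.fixingSubgroup →* Q)
    (hr : ∀ (σ : K.fixingSubgroup) (x : M),
      ((r σ • x : M) : PadicAlgCl q) = (σ : PadicAlgCl q ≃ₐ[ℚ_[q]] PadicAlgCl q) x)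
    (hsurj : Function.Surjective r) (F : LF q)
    (hF : ∀ σ ∈ K.fixingSubgroup, ∀ x ∈ F, σ x ∈ F) : (fixSub (M := M) Q F).Normal := by
  refine ⟨fun s hs g => ?_⟩
  obtain ⟨τ, rfl⟩ := hsurj g
  intro x hx
  have h1 : ((((r τ)⁻¹ • x : M)) : PadicAlgCl q) ∈ F := by
    rw [← map_inv r τ, hr τ⁻¹ x]
    exact hF _ τ⁻¹.2 _ hx
  rw [mul_smul, mul_smul, hs _ h1, smul_inv_smul]

end Normal

/-! ### the main theorem for `Gal(M/K)` -/

section Main

variable {K L : LF q} [FiniteDimensional ℚ_[q] K] [FiniteDimensional ℚ_[q] L]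
variable (hKL : K ≤ L) (hstL : ∀ σ ∈ K.fixingSubgroup, ∀ x ∈ L, σ x ∈ L)

theorem le_big : K ≤ bigField hKL := hKL.trans (le_bigField hKL)

include hstL in
theorem stable_big : ∀ σ ∈ K.fixingSubgroup, ∀ x ∈ bigField hKL, σ x ∈ bigField hKL :=
  stable_sup hstL (deg hKL)

theorem finrank_big :
    letI := relAlgebra (le_big hKL)
    Module.finrank K (bigField hKL) = deg hKL * ramIdx hKL := by
  letI := relAlgebra (le_big hKL)
  letI := relAlgebra hKL
  letI := relAlgebra (le_bigField hKL)
  haveI : IsScalarTower K L (bigField hKL) := IsScalarTower.of_algebraMap_eq (fun _ => rfl)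
  have h1 := Module.finrank_mul_finrank K L (bigField hKL)
  rw [finrank_rel_eq hKL, finrank_rel_sup hKL rfl] at h1
  exact h1.symm

/-- `Gal(M/K)`, `M = L · K_n`, for the `K`-algebra structure `relAlgebra`. -/
abbrev GalBig : Type :=
  @AlgEquiv K (bigField hKL) (bigField hKL) _ _ _ (relAlgebra (le_big hKL))
    (relAlgebra (le_big hKL))

/-- the restriction `Gal(Ω/K) → Gal(M/K)`. -/
abbrev resBig : K.fixingSubgroup →* GalBig hKL := resGal (le_big hKL) (stable_big hKL hstL)

theorem resBig_apply (σ : K.fixingSubgroup) (x : bigField hKL) :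
    ((resBig hKL hstL σ • x : bigField hKL) : PadicAlgCl q) =
      (σ : PadicAlgCl q ≃ₐ[ℚ_[q]] PadicAlgCl q) x := rfl

theorem resBig_surjective : Function.Surjective (resBig hKL hstL) :=
  resGal_surjective (le_big hKL) (stable_big hKL hstL)

include hstL in
theorem card_galBig : Nat.card (GalBig hKL) = deg hKL * ramIdx hKL := by
  rw [← finrank_big hKL]
  exact card_gal_rel (le_big hKL) (stable_big hKL hstL)

theorem isLocalGField_galBig : IsLocalGField (GalBig hKL) (bigField hKL) :=
  isLocalGField_rel (le_big hKL)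

include hstL in
/-- `Gal(M/L) ⊴ Gal(M/K)`. -/
theorem normal_fixSub_L : (fixSub (M := bigField hKL) (GalBig hKL) L).Normal :=
  fixSub_normal (resBig hKL hstL) (resBig_apply hKL hstL) (resBig_surjective hKL hstL) L hstL

include hstL in
/-- `Gal(M/K_n) ⊴ Gal(M/K)`. -/
theorem normal_fixSub_unr :
    (fixSub (M := bigField hKL) (GalBig hKL) (unr q K (deg hKL))).Normal :=
  fixSub_normal (resBig hKL hstL) (resBig_apply hKL hstL) (resBig_surjective hKL hstL) _
    (fun σ hσ _ hx => stable (K := K) (deg hKL) σ hσ hx)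

include hstL in
/-- **22a, `LF q` instance**: for `L / K` finite Galois (`L` stable under `Gal(Ω/K)`), `n = [L:K]`,
`M = L · K_n`, `Q = Gal(M/K)`: `|H²(Q ⧸ Gal(M/L), (Mˣ)^{Gal(M/L)})| = n` and
`H²(Q ⧸ Gal(M/K_n), (Mˣ)^{Gal(M/K_n)}) ≃ H²(Q ⧸ Gal(M/L), (Mˣ)^{Gal(M/L)})` compatibly with the
inflations to `H²(Q, Mˣ)`. -/
theorem main_LF [(fixSub (M := bigField hKL) (GalBig hKL) L).Normal]
    [(fixSub (M := bigField hKL) (GalBig hKL) (unr q K (deg hKL))).Normal] :
    Nat.card (groupCohomology ((unitsRep (GalBig hKL) (bigField hKL)).quotientToInvariants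
      (fixSub (M := bigField hKL) (GalBig hKL) L)) 2) = deg hKL ∧
    ∃ ψ : groupCohomology ((unitsRep (GalBig hKL) (bigField hKL)).quotientToInvariants
          (fixSub (M := bigField hKL) (GalBig hKL) (unr q K (deg hKL)))) 2 ≃ₗ[ℤ]
        groupCohomology ((unitsRep (GalBig hKL) (bigField hKL)).quotientToInvariants
          (fixSub (M := bigField hKL) (GalBig hKL) L)) 2,
      ∀ x, (infl (unitsRep (GalBig hKL) (bigField hKL))
          (fixSub (M := bigField hKL) (GalBig hKL) L)).hom (ψ x) =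
        (infl (unitsRep (GalBig hKL) (bigField hKL))
          (fixSub (M := bigField hKL) (GalBig hKL) (unr q K (deg hKL)))).hom x :=
  step_LF hKL (resBig hKL hstL) (isLocalGField_galBig hKL) (resBig_apply hKL hstL)
    (resBig_surjective hKL hstL) (card_galBig hKL hstL)

end Main

end Fermat.Agent.S55.LocInv80.LF
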