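/-
S55 / 22-LOC-INV, part 22a (helper80): `H²(L/K)` is CYCLIC of order `[L:K]`.

Supplement to `GField.step`: in the same setting, if moreover some `G`-invariant `a` has
`v a = e > 0` (a uniformizer of the base field), then the class of `a` in
`H²(G ⧸ Nu, A^Nu) = A^G / N(A^Nu)` (`G ⧸ Nu` cyclic of order `n`) has order exactly `n`; transported
by the equivalence of `GField.step` it gives a generator of `H²(G ⧸ NL, A^NL)` of order `[G : NL]`.
No sorry.
-/
import Mathlib
import Fermat.Agent.S55.LocInv80.GField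

set_option autoImplicit false

open CategoryTheory groupCohomology Rep Limits

universe u

namespace Fermat.Agent.S55.LocInv80.Gen

open Fermat.Agent.S55.LocInv80.Abs Fermat.Agent.S55.LocDev51

/-! ### the class of an invariant element in `H²` of a finite cyclic group -/

section Cyc

variable {k C : Type u} [CommRing k]

/-- commutative form. -/
theorem exists_class_comm [CommGroup C] [Fintype C] (B : Rep.{u, u, u} k C) (g : C)
    (hg : ∀ x, x ∈ Subgroup.zpowers g) (a : B) (ha : ∀ h : C, B.ρ h a = a) :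
    ∃ c : groupCohomology B 2, ∀ r : k, r • c = 0 → ∃ w : B, ∑ h : C, B.ρ h w = r • a := by
  have : NeZero 2 := ⟨two_ne_zero⟩
  have hmem : a ∈ LinearMap.ker (Rep.applyAsHom B g - 𝟙 B).hom.toLinearMap := by
    rw [LinearMap.mem_ker]
    show B.ρ g a - a = 0
    rw [ha g, sub_self]
  refine ⟨Rep.FiniteCyclicGroup.groupCohomologyπEven B g hg 2 even_two ⟨a, hmem⟩, fun r hr => ?_⟩
  have h1 : Rep.FiniteCyclicGroup.groupCohomologyπEven B g hg 2 even_two (r • ⟨a, hmem⟩) = 0 := by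
    rw [map_smul]
    exact hr
  rw [Rep.FiniteCyclicGroup.groupCohomologyπEven_eq_zero_iff] at h1
  obtain ⟨w, hw⟩ := h1
  refine ⟨w, ?_⟩
  have h2 : ((r • (⟨a, hmem⟩ : LinearMap.ker (Rep.applyAsHom B g - 𝟙 B).hom.toLinearMap) :
      LinearMap.ker (Rep.applyAsHom B g - 𝟙 B).hom.toLinearMap) : B) = r • a := rfl
  rw [← h2, ← hw]
  simp [Rep.norm, Representation.norm]

/-- for a finite cyclic group `C` and an invariant `a`, there is a class `c ∈ H²(C, B)` such that
`r • c = 0` forces `r • a` to be a norm. -/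
theorem exists_class [Group C] [Fintype C] (B : Rep.{u, u, u} k C) (g : C)
    (hg : ∀ x, x ∈ Subgroup.zpowers g) (a : B) (ha : ∀ h : C, B.ρ h a = a) :
    ∃ c : groupCohomology B 2, ∀ r : k, r • c = 0 → ∃ w : B, ∑ h : C, B.ρ h w = r • a := by
  have hcyc : IsCyclic C := ⟨g, hg⟩
  let _ : CommGroup C := IsCyclic.commGroup
  exact exists_class_comm B g hg a ha

end Cyc

/-! ### with a valuation -/

section Val

variable {G : Type} [Group G] [Finite G] (A : Rep.{0, 0, 0} ℤ G)

/-- **the class of a uniformizer has order `n`** in `H²(G ⧸ Nu, A^Nu)`, `G ⧸ Nu` cyclic of order `n`: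
`v` a `G`-invariant valuation with `e ∣ v` on `A^Nu`, `a ∈ A^G` with `v a = e > 0`. -/
theorem exists_class_quotient (Nu : Subgroup G) [Nu.Normal] [IsCyclic (G ⧸ Nu)]
    (v : A →+ ℤ) (hv : ∀ (g : G) (a : A), v (A.ρ g a) = v a) (e : ℕ) (he0 : 0 < e)
    (he : ∀ a : A, (∀ g ∈ Nu, A.ρ g a = a) → (e : ℤ) ∣ v a)
    (a : A) (ha : ∀ g : G, A.ρ g a = a) (hva : v a = e) :
    ∃ c : groupCohomology (A.quotientToInvariants Nu) 2,
      ∀ r : ℤ, r • c = 0 → (Nat.card (G ⧸ Nu) : ℤ) ∣ r := by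
  classical
  let _ : Fintype (G ⧸ Nu) := Fintype.ofFinite _
  obtain ⟨g, hg⟩ := IsCyclic.exists_generator (α := G ⧸ Nu)
  -- `a` as an element of the layer
  let a' : A.quotientToInvariants Nu := ⟨a, fun n => ha n⟩
  have ha' : ∀ h : G ⧸ Nu, (A.quotientToInvariants Nu).ρ h a' = a' := by
    intro h
    obtain ⟨h, rfl⟩ := QuotientGroup.mk_surjective h
    apply Subtype.ext
    exact ha h
  obtain ⟨c, hc⟩ := exists_class (A.quotientToInvariants Nu) g hg a' ha'
  refine ⟨c, fun r hr => ?_⟩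
  have hr' : @SMul.smul ℤ _ (ModuleCat.isModule _).toSMul r c = 0 :=
    (int_smul_eq_zsmul (ModuleCat.isModule _) r c).trans hr
  obtain ⟨w, hw⟩ := hc r hr'
  -- apply the valuation
  let f : (A.quotientToInvariants Nu) →+ ℤ :=
    AddMonoidHom.mk' (fun x => v (x : A)) (fun x y => map_add v _ _)
  have hf : ∀ x : A.quotientToInvariants Nu, f x = v (x : A) := fun _ => rfl
  have hfρ : ∀ (h : G ⧸ Nu) (x : A.quotientToInvariants Nu),
      f ((A.quotientToInvariants Nu).ρ h x) = f x := by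
    intro h x
    obtain ⟨h, rfl⟩ := QuotientGroup.mk_surjective h
    rw [hf, hf]
    exact hv h (x : A)
  have h1 := congrArg f hw
  rw [map_sum] at h1
  simp only [hfρ, Finset.sum_const, Finset.card_univ] at h1
  obtain ⟨m, hm⟩ := he (w : A) (fun n hn => w.2 ⟨n, hn⟩)
  have h2 : f (@SMul.smul ℤ _ (A.quotientToInvariants Nu).hV2.toSMul r a') = r * e := by
    have h3 : ((@SMul.smul ℤ _ (A.quotientToInvariants Nu).hV2.toSMul r a' :
        A.quotientToInvariants Nu) : A) = @SMul.smul ℤ _ A.hV2.toSMul r a := rfl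
    rw [hf, h3]
    have h4 : v (@SMul.smul ℤ _ A.hV2.toSMul r a) = r • v a :=
      (congrArg v (int_smul_eq_zsmul A.hV2 r a)).trans (map_zsmul v r a)
    rw [h4, hva, smul_eq_mul]
  have h1' : Fintype.card (G ⧸ Nu) • f w = r * e := h1.trans h2
  rw [hf, hm, nsmul_eq_mul, ← Nat.card_eq_fintype_card] at h1'
  have he' : (e : ℤ) ≠ 0 := by exact_mod_cast he0.ne'
  refine ⟨m, ?_⟩
  apply mul_right_cancel₀ he'
  rw [← h1']
  ring

end Val

/-! ### generators of finite abelian groups -/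

/-- an element `c` of a finite abelian group of order `n` such that `r • c = 0 → n ∣ r` has order
`n` and generates. -/
theorem generator_of_order {H : Type*} [AddCommGroup H] [Finite H] (n : ℕ)
    (hcard : Nat.card H = n) (c : H) (hc : ∀ r : ℤ, r • c = 0 → (n : ℤ) ∣ r) :
    addOrderOf c = n ∧ ∀ x : H, ∃ j : ℤ, x = j • c := by
  have h1 : addOrderOf c ∣ n := hcard ▸ addOrderOf_dvd_natCard c
  have h2 : n ∣ addOrderOf c := by
    have := hc (addOrderOf c) (by rw [natCast_zsmul, addOrderOf_nsmul_eq_zero])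
    exact Int.natCast_dvd_natCast.1 this
  have hord : addOrderOf c = n := Nat.dvd_antisymm h1 h2
  refine ⟨hord, fun x => ?_⟩
  have htop : AddSubgroup.zmultiples c = ⊤ := by
    apply AddSubgroup.eq_top_of_card_eq
    rw [Nat.card_zmultiples, hord, hcard]
  have hx : x ∈ AddSubgroup.zmultiples c := by rw [htop]; exact AddSubgroup.mem_top x
  obtain ⟨j, hj⟩ := AddSubgroup.mem_zmultiples_iff.1 hx
  exact ⟨j, hj.symm⟩

/-! ### the generator in the setting of `GField.exists_equiv_and_card` / `GField.step` -/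

section Step

variable {G : Type} [Group G] [Finite G] {A : Rep.{0, 0, 0} ℤ G}

/-- **`H²(G ⧸ NL, A^NL)` is cyclic of order `[G : NL]`**, in the setting of
`GField.exists_equiv_and_card`, given `a ∈ A^G` with `v a = e > 0`. -/
theorem exists_generator (hA : LocalClass G A) (Nu NL : Subgroup G) [Nu.Normal] [NL.Normal]
    [IsCyclic (G ⧸ Nu)] (hidx : Nat.card (G ⧸ Nu) = Nat.card (G ⧸ NL))
    (v : A →+ ℤ) (hv : ∀ (g : G) (a : A), v (A.ρ g a) = v a) (hsurj : Function.Surjective v)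
    (e : ℕ) (he0 : 0 < e) (he : ∀ a : A, (∀ g ∈ Nu, A.ρ g a = a) → (e : ℤ) ∣ v a)
    (hcard : Nat.card NL ∣ e)
    (hU : ∀ c ∈ cocycles₂ (res NL.subtype A), (∀ p, v (c p) = 0) →
      c ∈ coboundaries₂ (res NL.subtype A))
    (a : A) (ha : ∀ g : G, A.ρ g a = a) (hva : v a = e) :
    ∃ γ : groupCohomology (A.quotientToInvariants NL) 2,
      addOrderOf γ = Nat.card (G ⧸ NL) ∧ (∀ x, ∃ j : ℤ, x = j • γ) ∧
      (∀ j : ℤ, j • γ = 0 → (Nat.card (G ⧸ NL) : ℤ) ∣ j) ∧
      ∃ γu : groupCohomology (A.quotientToInvariants Nu) 2,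
        (infl A NL).hom γ = (infl A Nu).hom γu := by
  obtain ⟨hc, ψ, hψ⟩ := GField.exists_equiv_and_card hA Nu NL hidx v (fun g _ a => hv g a) hsurj e
    he hcard hU
  obtain ⟨c, hcu⟩ := exists_class_quotient A Nu v hv e he0 he a ha hva
  have hfin := GField.finite_H2_quotient hA NL
  have hγ : ∀ j : ℤ, j • ψ c = 0 → (Nat.card (G ⧸ NL) : ℤ) ∣ j := by
    intro j hj
    rw [← hidx]
    apply hcu j
    have h1 : ψ (j • c) = 0 := by
      rw [← hj]
      exact map_zsmul ψ.toAddEquiv.toAddMonoidHom j c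
    exact ψ.injective (h1.trans (map_zero ψ).symm)
  obtain ⟨h1, h2⟩ := generator_of_order _ hc (ψ c) hγ
  exact ⟨ψ c, h1, h2, hγ, c, hψ c⟩

end Step

section Concrete

attribute [local instance] Units.mulDistribMulActionRight

variable {Q E : Type} [Group Q] [NormedField E] [MulSemiringAction Q E]

/-- the generator, in the setting of `GField.step` (same hypotheses, plus `v` invariant under all
of `Q` — already assumed there —, `0 < e`, and a `Q`-invariant unit `a` with `v a = e`). -/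
theorem step_generator (h : IsLocalGField Q E) (Nu NL : Subgroup Q) [Nu.Normal] [NL.Normal]
    [IsCyclic (Q ⧸ Nu)] (hidx : Nat.card (Q ⧸ Nu) = Nat.card (Q ⧸ NL))
    (v : Additive Eˣ →+ ℤ)
    (hv : ∀ (σ : Q) (x : Eˣ), v (Additive.ofMul (σ • x)) = v (Additive.ofMul x))
    (hsurj : Function.Surjective v) (e : ℕ) (he0 : 0 < e)
    (he : ∀ x : Eˣ, (∀ σ ∈ Nu, σ • x = x) → (e : ℤ) ∣ v (Additive.ofMul x))
    (hcard : Nat.card NL ∣ e) (φ : Q) (hφ : NL = Subgroup.zpowers φ) [Fintype NL]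
    (hnorm : ∀ u : Eˣ, (∀ σ ∈ NL, σ • u = u) → v (Additive.ofMul u) = 0 →
      ∃ w : Eˣ, v (Additive.ofMul w) = 0 ∧ ∏ σ : NL, ((σ : Q) • w) = u)
    (a : Eˣ) (ha : ∀ σ : Q, σ • a = a) (hva : v (Additive.ofMul a) = e) :
    ∃ γ : groupCohomology ((unitsRep Q E).quotientToInvariants NL) 2,
      addOrderOf γ = Nat.card (Q ⧸ NL) ∧ (∀ x, ∃ j : ℤ, x = j • γ) ∧
      (∀ j : ℤ, j • γ = 0 → (Nat.card (Q ⧸ NL) : ℤ) ∣ j) ∧
      ∃ γu : groupCohomology ((unitsRep Q E).quotientToInvariants Nu) 2,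
        (infl (unitsRep Q E) NL).hom γ = (infl (unitsRep Q E) Nu).hom γu := by
  classical
  have := h.finite
  obtain ⟨hc, ψ, hψ⟩ := GField.step h Nu NL hidx v hv hsurj e he hcard φ hφ hnorm
  have hρ : ∀ (σ : Q) (x : unitsRep Q E), (unitsRep Q E).ρ σ x = ofU (σ • toU x) := fun σ x => rfl
  obtain ⟨c, hcu⟩ := exists_class_quotient (unitsRep Q E) Nu v
    (fun g x => by rw [hρ]; exact hv g (toU x)) e he0
    (fun x hx => he (toU x) fun σ hσ => by
      have h2 := hx σ hσ
      rw [hρ] at h2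
      exact ofU_injective h2)
    (ofU a) (fun g => by rw [hρ]; exact congrArg ofU (ha g)) hva
  have hfin := GField.finite_H2_quotient (localClass_unitsRep h) NL
  have hγ : ∀ j : ℤ, j • ψ c = 0 → (Nat.card (Q ⧸ NL) : ℤ) ∣ j := by
    intro j hj
    rw [← hidx]
    apply hcu j
    have h1 : ψ (j • c) = 0 := by
      rw [← hj]
      exact map_zsmul ψ.toAddEquiv.toAddMonoidHom j c
    exact ψ.injective (h1.trans (map_zero ψ).symm)
  obtain ⟨h1, h2⟩ := generator_of_order _ hc (ψ c) hγ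
  exact ⟨ψ c, h1, h2, hγ, c, hψ c⟩

end Concrete

end Fermat.Agent.S55.LocInv80.Gen
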