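/-
S55 / 22b -> 34 seam (helper80, for helper37's `CycloRecip37.WildInst` item (3)):
**explicit inflation–restriction in cochain form** = `Br(E/K) ↪ Br(K)`.

`E / ℚ_q` finite normal, `D' ≤ Gal(E/ℚ_q)`, `K = E^{D'} = fixK E D'`.  A cocycle `f` on `D'` with
values in `Eˣ` whose inflation `UnrExt93.infl₂ E K f` to `G_K` is a LEVEL coboundary (for any good
level structure on `G_K`) is a coboundary on `D'`:

  `isCobOn_of_infl₂_mem_B₂ h𝒰 hf hB : IsCobOn (unitsE E) D' f`.

Proof: `infl f = d y`; `y - f(1,1)` is a level 1-cocycle on `N = ker (G_K → D')`; Hilbert 90 in the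
limit (helper86's `KummerBr86.Hilbert90Lim.exists_units_of_cocycle`) gives `w` with
`y - f(1,1) = d w` on `N`; then `y' = y - d w` is constant modulo `N` with `N`-fixed values
(`exists_descended`, abstract), i.e. values in `(Ωˣ)^N = Eˣ`, and descends to `D'`.
-/
import Fermat.Agent.S55.UnrExt93.LocSys
import Fermat.Agent.S55.KummerBr86.Hilbert90Lim

set_option autoImplicit false
set_option linter.unusedSectionVars false

open CategoryTheory groupCohomology

namespace Fermat.Agent.S55.LocInv80.InflInj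

section Abstract

variable {G : Type} [Group G] (A : Rep.{0, 0, 0} ℤ G) (N : Subgroup G) [N.Normal]

/-- **explicit inflation–restriction, cochain form.**  Let `F` be a 2-cocycle of `G` which is
constant modulo `N` and whose value at `(1, 1)` is `N`-fixed.  If `F = d y` and the restriction of
`y - F (1, 1)` to `N` (a 1-cocycle) is the coboundary of `w`, then `y' = y - d w` is a primitive of
`F` which is constant modulo `N` and has `N`-fixed values. -/
theorem exists_descended (F : G × G → A) (hF : F ∈ cocycles₂ A)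
    (hFN : ∀ g h s t, s ∈ N → t ∈ N → F (g * s, h * t) = F (g, h))
    (hu : ∀ s ∈ N, A.ρ s (F (1, 1)) = F (1, 1))
    (y : G → A) (hy : (d₁₂ A).hom y = F)
    (hH90 : (∀ s ∈ N, ∀ t ∈ N, y (s * t) - F (1, 1) = A.ρ s (y t - F (1, 1)) + (y s - F (1, 1))) →
      ∃ w : A, ∀ s ∈ N, y s - F (1, 1) = A.ρ s w - w) :
    ∃ y' : G → A, (d₁₂ A).hom y' = F ∧ (∀ g, ∀ s ∈ N, y' (g * s) = y' g) ∧
      (∀ g, ∀ s ∈ N, A.ρ s (y' g) = y' g) := by
  set u := F (1, 1) with hu_def
  have hd : ∀ g h, A.ρ g (y h) - y (g * h) + y g = F (g, h) := fun g h => by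
    rw [← hy, d₁₂_hom_apply]
  -- cocycle identities
  have h1g : ∀ g, F (1, g) = u := fun g => cocycles₂_map_one_fst ⟨F, hF⟩ g
  have hg1 : ∀ g, F (g, 1) = A.ρ g u := fun g => cocycles₂_map_one_snd ⟨F, hF⟩ g
  have hFs : ∀ g, ∀ s ∈ N, F (g, s) = A.ρ g u := fun g s hs => by
    have := hFN g 1 1 s (one_mem N) hs
    rw [mul_one, one_mul] at this
    rw [this, hg1]
  have hsF : ∀ g, ∀ s ∈ N, F (s, g) = u := fun g s hs => by
    have := hFN 1 g s 1 hs (one_mem N)
    rw [mul_one, one_mul] at this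
    rw [this, h1g]
  obtain ⟨w, hw⟩ := hH90 (fun s hs t ht => by
    have h := hd s t
    rw [hsF t s hs] at h
    rw [map_sub, hu s hs]
    rw [← h]
    abel)
  refine ⟨fun g => y g - (A.ρ g w - w), ?_, ?_, ?_⟩
  · funext ⟨g, h⟩
    rw [d₁₂_hom_apply, ← hd g h]
    simp only [map_sub, map_mul, Module.End.mul_apply]
    abel
  · -- the new primitive
    have hy'N : ∀ s ∈ N, y s - (A.ρ s w - w) = u := fun s hs => by
      rw [← hw s hs]; abel
    have hd' : ∀ g h, A.ρ g (y h - (A.ρ h w - w)) - (y (g * h) - (A.ρ (g * h) w - w)) +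
        (y g - (A.ρ g w - w)) = F (g, h) := fun g h => by
      rw [← hd g h]
      simp only [map_sub, map_mul, Module.End.mul_apply]
      abel
    intro g s hs
    have := hd' g s
    rw [hy'N s hs, hFs g s hs] at this
    have h5 : (y g - (A.ρ g w - w)) - (y (g * s) - (A.ρ (g * s) w - w)) = 0 := by
      have h3 := sub_eq_zero.2 this
      rw [← h3]
      abel
    exact (sub_eq_zero.1 h5).symm
  · have hy'N : ∀ s ∈ N, y s - (A.ρ s w - w) = u := fun s hs => by
      rw [← hw s hs]; abel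
    have hd' : ∀ g h, A.ρ g (y h - (A.ρ h w - w)) - (y (g * h) - (A.ρ (g * h) w - w)) +
        (y g - (A.ρ g w - w)) = F (g, h) := fun g h => by
      rw [← hd g h]
      simp only [map_sub, map_mul, Module.End.mul_apply]
      abel
    have hconst : ∀ g, ∀ s ∈ N, y (g * s) - (A.ρ (g * s) w - w) = y g - (A.ρ g w - w) := by
      intro g s hs
      have := hd' g s
      rw [hy'N s hs, hFs g s hs] at this
      have h5 : (y g - (A.ρ g w - w)) - (y (g * s) - (A.ρ (g * s) w - w)) = 0 := by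
        have h3 := sub_eq_zero.2 this
        rw [← h3]
        abel
      exact (sub_eq_zero.1 h5).symm
    intro g s hs
    have := hd' s g
    rw [hy'N s hs, hsF g s hs] at this
    have h6 : s * g = g * (g⁻¹ * s * g) := by group
    have hmem : g⁻¹ * s * g ∈ N := by
      have := ‹N.Normal›.conj_mem s hs g⁻¹
      rwa [inv_inv] at this
    rw [h6, hconst g _ hmem] at this
    have h5 : A.ρ s (y g - (A.ρ g w - w)) - (y g - (A.ρ g w - w)) = 0 := by
      have h3 := sub_eq_zero.2 this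
      rw [← h3]
      abel
    exact sub_eq_zero.1 h5

end Abstract

section Concrete

open Fermat.Agent.S55.LocField17 Fermat.Agent.S55.Profin15 Fermat.Agent.S55.UnrExt93
open Fermat.Agent.S55.LocInv28.Padic Fermat.Agent.S55.CycloRecip37.GSys
open Fermat.Agent.S55.KummerBr86

variable {q : ℕ} [Fact q.Prime] {E : LF q} [FiniteDimensional ℚ_[q] E] [Normal ℚ_[q] E]

/-- the kernel of the restriction `G_K → Gal(E/ℚ_q)`. -/
noncomputable def kerE (E : LF q) [FiniteDimensional ℚ_[q] E] [Normal ℚ_[q] E] (K : LF q) :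
    Subgroup (GK K) := ((resE E).comp K.fixingSubgroup.subtype).ker

instance (K : LF q) : (kerE E K).Normal := by unfold kerE; infer_instance

lemma mem_kerE {K : LF q} (s : GK K) : s ∈ kerE E K ↔ resE E (s : Gq q) = 1 := MonoidHom.mem_ker

lemma inclE_injective (K : LF q) : Function.Injective (inclE E K) := by
  intro a b h
  have h1 := congrArg (valΩ K) h
  rw [valΩ_inclE, valΩ_inclE] at h1
  exact (Additive.toMul (α := (↥E)ˣ)).injective (Units.ext (Subtype.ext h1))

lemma exists_inclE_eq (K : LF q) (a : AK K) (ha : valΩ K a ∈ E) :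
    ∃ e : unitsE E, inclE E K e = a := by
  have hne : (⟨valΩ K a, ha⟩ : E) ≠ 0 := fun h => valΩ_ne_zero K a (congrArg Subtype.val h)
  refine ⟨(Additive.ofMul (Units.mk0 (⟨valΩ K a, ha⟩ : E) hne) : Additive (↥E)ˣ), ?_⟩
  apply valΩ_injective K
  rw [valΩ_inclE]
  rfl

lemma valΩ_mem_of_fixed {K : LF q} (hKE : K ≤ E) (a : AK K)
    (ha : ∀ s ∈ kerE E K, (AK K).ρ s a = a) : valΩ K a ∈ E := by
  apply mem_of_fixed (K := E)
  intro σ hσ
  have hσK : σ ∈ K.fixingSubgroup := IntermediateField.fixingSubgroup_antitone hKE hσ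
  have h1 : (⟨σ, hσK⟩ : GK K) ∈ kerE E K := by
    rw [mem_kerE]
    exact resE_eq_one_of_fixes E (fun x hx => (IntermediateField.mem_fixingSubgroup_iff _ _).1 hσ x hx)
  exact (ρ_eq_iff K ⟨σ, hσK⟩ a).1 (ha _ h1)

/-- **Hilbert 90 on the kernel**: a level 1-cochain of `G_K` which satisfies the cocycle identity on
`N = ker (G_K → Gal(E/ℚ_q))` is a coboundary on `N`. -/
theorem exists_primitive_on_ker {K : LF q} {𝒰 : LevelStr (GK K)} (h𝒰 : GoodLevels K 𝒰)
    (z : GK K → AK K) (hz : 𝒰.IsConst₁ z)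
    (hcoc : ∀ s ∈ kerE E K, ∀ t ∈ kerE E K, z (s * t) = (AK K).ρ s (z t) + z s) :
    ∃ w : AK K, ∀ s ∈ kerE E K, z s = (AK K).ρ s w - w := by
  obtain ⟨U, hU, hconst⟩ := hz
  obtain ⟨T, hT⟩ := h𝒰.closed U hU
  have := 𝒰.finiteIndex U hU
  obtain ⟨b, hb⟩ := Hilbert90Lim.exists_units_of_cocycle
    (K.fixingSubgroup.subtype.comp (kerE E K).subtype) (U.subgroupOf (kerE E K))
    (fun s : ↥(kerE E K) => Additive.toMul (z (s : GK K) : Additive (PadicAlgCl q)ˣ)) T
    (fun s => by rw [Subgroup.mem_subgroupOf, hT]; rfl)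
    (fun s t => by
      have h := hcoc s s.2 t t.2
      have h2 := congrArg (Additive.toMul (α := (PadicAlgCl q)ˣ)) h
      rw [add_comm] at h2
      exact h2)
    (fun s t ht => congrArg Additive.toMul (hconst s t ht))
  refine ⟨(Additive.ofMul b : Additive (PadicAlgCl q)ˣ), fun s hs => ?_⟩
  have h := hb ⟨s, hs⟩
  exact congrArg (Additive.ofMul (α := (PadicAlgCl q)ˣ)) h

/-- **`Br(E/K) ↪ Br(K)`, cochain form**: a cocycle on `D' ≤ Gal(E/ℚ_q)` whose inflation to
`G_K`, `K = E^{D'}`, is a level coboundary, is a coboundary on `D'`. -/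
theorem isCobOn_of_infl₂_mem_B₂ {D' : Subgroup (E ≃ₐ[ℚ_[q]] E)}
    {𝒰 : LevelStr (GK (fixK E D'))} (h𝒰 : GoodLevels (fixK E D') 𝒰)
    {f : (E ≃ₐ[ℚ_[q]] E) × (E ≃ₐ[ℚ_[q]] E) → unitsE E} (hf : IsCocOn (unitsE E) D' f)
    (hB : infl₂ E (fixK E D') f ∈ 𝒰.B₂ (AK (fixK E D'))) : IsCobOn (unitsE E) D' f := by
  classical
  obtain ⟨y, hyc, hy⟩ := (LevelStr.mem_B₂_iff 𝒰 (AK (fixK E D')) _).1 hB
  have hres1 : ∀ s ∈ kerE E (fixK E D'), resE E ((s : GK (fixK E D')) : Gq q) = 1 :=
    fun s hs => (mem_kerE s).1 hs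
  -- the descended primitive
  obtain ⟨y', hy', hconst, hfix⟩ := exists_descended (AK (fixK E D')) (kerE E (fixK E D'))
    (infl₂ E (fixK E D') f) (infl₂_mem_cocycles₂ (resE_mem D') hf)
    (fun g h s t hs ht => by
      rw [infl₂_apply, infl₂_apply, Subgroup.coe_mul, Subgroup.coe_mul, map_mul, map_mul,
        hres1 s hs, hres1 t ht, mul_one, mul_one])
    (fun s hs => by
      rw [infl₂_apply, rho_inclE, hres1 s hs]
      simp)
    y hy
    (fun hcoc => exists_primitive_on_ker h𝒰 (fun g => y g - infl₂ E (fixK E D') f (1, 1))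
      (by
        obtain ⟨U, hU, hc⟩ := hyc
        exact ⟨U, hU, fun g s hs => by
          show y (g * s) - _ = y g - _
          rw [hc g s hs]⟩)
      hcoc)
  -- values in `Eˣ`
  have hval : ∀ g, ∃ e : unitsE E, inclE E (fixK E D') e = y' g := fun g =>
    exists_inclE_eq _ _ (valΩ_mem_of_fixed (fixK_le D') (y' g) (hfix g))
  -- lifts of the elements of `D'`
  have hlift : ∀ d : E ≃ₐ[ℚ_[q]] E, d ∈ D' → ∃ g : GK (fixK E D'), resE E (g : Gq q) = d := by
    intro d hd
    obtain ⟨τ, rfl⟩ := resE_surjective E d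
    exact ⟨⟨τ, mem_fixingSubgroup_fixK_iff.2 hd⟩, rfl⟩
  -- `y'` only depends on the restriction
  have hdep : ∀ g g' : GK (fixK E D'), resE E (g : Gq q) = resE E (g' : Gq q) → y' g = y' g' := by
    intro g g' h
    have h1 : g' = g * (g⁻¹ * g') := by group
    have h2 : g⁻¹ * g' ∈ kerE E (fixK E D') := by
      rw [mem_kerE, Subgroup.coe_mul, map_mul, Subgroup.coe_inv, map_inv, h, inv_mul_cancel]
    rw [h1, hconst g _ h2]
  choose ev hev using hval
  choose lift hl using hlift
  refine ⟨fun d => if hd : d ∈ D' then ev (lift d hd) else 0, ?_⟩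
  intro g hg h hh
  have hgh : g * h ∈ D' := D'.mul_mem hg hh
  simp only [dif_pos hg, dif_pos hh, dif_pos hgh]
  apply inclE_injective (E := E) (fixK E D')
  have hθ : y' (lift (g * h) hgh) = y' (lift g hg * lift h hh) :=
    hdep _ _ (by rw [hl, Subgroup.coe_mul, map_mul, hl, hl])
  have h4 : inclE E (fixK E D') ((unitsE E).ρ g (ev (lift h hh))) =
      (AK (fixK E D')).ρ (lift g hg) (y' (lift h hh)) := by
    rw [← hev, rho_inclE, hl]
  rw [map_add, map_sub, hev, hev, hθ, h4]
  have h5 := congrFun hy' (lift g hg, lift h hh)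
  rw [d₁₂_hom_apply, infl₂_apply, hl, hl] at h5
  exact h5

open Fermat.Agent.S55.LocInv28.Abstract in
/-- **injectivity of the local system** (helper37's `WildInst` item (4)): a cocycle on `D'` with
vanishing local invariant is a coboundary on `D'`. -/
theorem locSysE_inj (I : InvFamily q) (E : LF q) [FiniteDimensional ℚ_[q] E] [Normal ℚ_[q] E]
    {D' : Subgroup (E ≃ₐ[ℚ_[q]] E)}
    {f : (E ≃ₐ[ℚ_[q]] E) × (E ≃ₐ[ℚ_[q]] E) → unitsE E} (hf : IsCocOn (unitsE E) D' f)
    (h0 : (locSysE I E).S D' f = 0) : IsCobOn (unitsE E) D' f := by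
  rw [locSysE_S, locS_of_isCocOn I E hf] at h0
  have h1 : inflClass I E D' f hf = 0 :=
    (I.isInv (fixK E D')).inv_injective (by rw [h0, map_zero])
  unfold inflClass at h1
  rw [LevelStr.H2π_eq_zero_iff] at h1
  exact isCobOn_of_infl₂_mem_B₂ (I.good (fixK E D')) hf h1

end Concrete

end Fermat.Agent.S55.LocInv80.InflInj
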