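/-
S55 / 22-LOC-INV, part 22a (helper80): `H²(L/K)` is cyclic of order `[L:K]` in the `LF q` model
(the generator = image of the class of a uniformizer of `K` in `H²(K_n/K)`).

Same setting as `LFCore.step_LF` / `LF.main_LF`.  No sorry.
-/
import Mathlib
import Fermat.Agent.S55.LocInv80.LF
import Fermat.Agent.S55.LocInv80.Gen

set_option autoImplicit false
set_option linter.unusedSectionVars false
set_option linter.style.haveILetI false

noncomputable section

namespace Fermat.Agent.S55.LocInv80.LFGen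

open Fermat.Agent.S55.LocField17 Fermat.Agent.S55.LocDev51 Fermat.Agent.S55.UnrExt93
  Fermat.Agent.S55.UnrMax66 Fermat.Agent.S55.LocInv80.LFPrep Fermat.Agent.S55.LocInv80.Abs
  Fermat.Agent.S55.LocInv80.LFCore Fermat.Agent.S55.LocInv80.LF

attribute [local instance] Units.mulDistribMulActionRight

variable {q : ℕ} [Fact q.Prime]

section Core

variable {K L M : LF q} [FiniteDimensional ℚ_[q] K] [FiniteDimensional ℚ_[q] L]
  [FiniteDimensional ℚ_[q] M]
variable {Q : Type} [Group Q] [MulSemiringAction Q M]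

/-- the generator, core statement with `M`, `n`, `e` as free variables: same hypotheses as
`LFCore.step_core` plus a unit `a` of `M` lying in `K` with `ord_M a = e`. -/
theorem step_core_gen (hKL : K ≤ L) (n e : ℕ) (hn : 0 < n) (he : 0 < e)
    (hLM : L ≤ M) (hKnM : unr q K n ≤ M) (hMeq : M = unr q L e)
    (hdvd : ∀ x : M, (x : PadicAlgCl q) ∈ unr q K n → (e : ℤ) ∣ ord M x)
    (r : K.fixingSubgroup →* Q)
    (hQ : IsLocalGField Q M)
    (hr : ∀ (σ : K.fixingSubgroup) (x : M),
      ((r σ • x : M) : PadicAlgCl q) = (σ : PadicAlgCl q ≃ₐ[ℚ_[q]] PadicAlgCl q) x)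
    (hsurj : Function.Surjective r)
    (hQcard : Nat.card Q = n * e)
    [(fixSub (M := M) Q L).Normal]
    [(fixSub (M := M) Q (unr q K n)).Normal]
    (a : Mˣ) (haK : ((a : M) : PadicAlgCl q) ∈ K) (hva : ord M (a : M) = e) :
    ∃ γ : groupCohomology ((unitsRep Q M).quotientToInvariants (fixSub (M := M) Q L)) 2,
      addOrderOf γ = n ∧ (∀ x, ∃ j : ℤ, x = j • γ) ∧ (∀ j : ℤ, j • γ = 0 → (n : ℤ) ∣ j) ∧
      ∃ γu : groupCohomology ((unitsRep Q M).quotientToInvariants
          (fixSub (M := M) Q (unr q K n))) 2,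
        (infl (unitsRep Q M) (fixSub (M := M) Q L)).hom γ =
          (infl (unitsRep Q M) (fixSub (M := M) Q (unr q K n))).hom γu := by
  classical
  have hfinQ := hQ.finite
  -- Frobenius elements
  obtain ⟨φK, hφKmem, hφK, -⟩ := exists_frob (K := K) hn
  obtain ⟨φL, hφLmem, hφL, -⟩ := exists_frob (K := L) he
  obtain ⟨hcycK1, hcycK2⟩ := cyclic (K := K) hn hφKmem hφK
  obtain ⟨hcycL1, hcycL2⟩ := cyclic (K := L) he hφLmem hφL
  have hLK : L.fixingSubgroup ≤ K.fixingSubgroup := IntermediateField.fixingSubgroup_antitone hKL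
  have hKnK : (unr q K n).fixingSubgroup ≤ K.fixingSubgroup :=
    IntermediateField.fixingSubgroup_antitone (le_unr K n)
  -- powers of `r`
  have hrpow : ∀ (σ : K.fixingSubgroup) (i : ℕ) (x : M),
      (((r σ) ^ i • x : M) : PadicAlgCl q) =
        ((σ : PadicAlgCl q ≃ₐ[ℚ_[q]] PadicAlgCl q) ^ i) x := by
    intro σ i x
    rw [← map_pow r σ i, hr (σ ^ i) x, Subgroup.coe_pow]
  -- `r σ ∈ fixSub F` for `σ` fixing `F`
  have hrfix : ∀ (F : LF q) (σ : K.fixingSubgroup),
      (σ : PadicAlgCl q ≃ₐ[ℚ_[q]] PadicAlgCl q) ∈ F.fixingSubgroup → r σ ∈ fixSub (M := M) Q F := by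
    intro F σ hσ x hx
    apply Subtype.ext
    rw [hr σ x]
    exact (IntermediateField.mem_fixingSubgroup_iff _ _).1 hσ _ hx
  -- elements of `M` fixed by `fixSub F` lie in `F`
  have hmemF : ∀ (F : LF q), F.fixingSubgroup ≤ K.fixingSubgroup → ∀ x : M,
      (∀ s ∈ fixSub (M := M) Q F, s • x = x) → (x : PadicAlgCl q) ∈ F := by
    intro F hF x hx
    refine mem_of_fixed (K := F) fun σ hσ => ?_
    have h1 := hx (r ⟨σ, hF hσ⟩) (hrfix F ⟨σ, hF hσ⟩ hσ)
    have h2 := congrArg (fun y : M => (y : PadicAlgCl q)) h1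
    exact (hr ⟨σ, hF hσ⟩ x).symm.trans h2
  -- the generators
  set γK : Q := r ⟨φK, hφKmem⟩ with hγK
  set γL : Q := r ⟨φL, hLK hφLmem⟩ with hγL
  -- `NL = zpowers γL`
  have hNL : fixSub (M := M) Q L = Subgroup.zpowers γL := by
    apply le_antisymm
    · intro t ht
      obtain ⟨σ, rfl⟩ := hsurj t
      have hσL : (σ : PadicAlgCl q ≃ₐ[ℚ_[q]] PadicAlgCl q) ∈ L.fixingSubgroup := by
        rw [IntermediateField.mem_fixingSubgroup_iff]
        intro x hx
        have h1 := ht ⟨x, hLM hx⟩ hx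
        have h2 := congrArg (fun y : M => (y : PadicAlgCl q)) h1
        exact (hr σ ⟨x, hLM hx⟩).symm.trans h2
      obtain ⟨i, -, hi⟩ := hcycL1 σ hσL
      have : r σ = γL ^ i := by
        apply (hQ.faithful).eq_of_smul_eq_smul
        intro x
        apply Subtype.ext
        rw [hr σ x, hγL, hrpow]
        exact hi x (by rw [← hMeq]; exact x.2)
      rw [this]
      exact Subgroup.npow_mem_zpowers γL i
    · rw [Subgroup.zpowers_le]
      exact hrfix L _ hφLmem
  -- `|NL| = e`
  have hordL : orderOf γL = e := by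
    have key : ∀ i : ℕ, γL ^ i = 1 ↔ e ∣ i := by
      intro i
      rw [← hcycL2 i]
      constructor
      · intro h1 x hx
        have hxM : x ∈ M := by rw [hMeq]; exact hx
        have h2 := hrpow ⟨φL, hLK hφLmem⟩ i ⟨x, hxM⟩
        rw [← hγL, h1, one_smul] at h2
        exact h2.symm
      · intro h1
        apply (hQ.faithful).eq_of_smul_eq_smul
        intro x
        apply Subtype.ext
        rw [one_smul, hγL, hrpow]
        exact h1 x (by rw [← hMeq]; exact x.2)
    exact Nat.dvd_antisymm (orderOf_dvd_of_pow_eq_one ((key e).2 dvd_rfl))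
      ((key (orderOf γL)).1 (pow_orderOf_eq_one γL))
  have hcardNL : Nat.card (fixSub (M := M) Q L) = e := by
    rw [hNL, Nat.card_zpowers, hordL]
  -- `Q ⧸ Nu` is cyclic of order `n`
  set Nu := fixSub (M := M) Q (unr q K n) with hNu
  have hgenK : ∀ t : Q ⧸ Nu, t ∈ Subgroup.zpowers (QuotientGroup.mk γK : Q ⧸ Nu) := by
    intro t
    obtain ⟨t, rfl⟩ := QuotientGroup.mk_surjective t
    obtain ⟨σ, rfl⟩ := hsurj t
    obtain ⟨i, -, hi⟩ := hcycK1 σ σ.2
    refine Subgroup.mem_zpowers_iff.2 ⟨(i : ℤ), ?_⟩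
    rw [zpow_natCast, ← QuotientGroup.mk_pow, QuotientGroup.eq]
    intro x hx
    apply Subtype.ext
    have h1 : r σ • x = γK ^ i • x := by
      apply Subtype.ext
      rw [hr σ x, hγK, hrpow]
      exact hi _ hx
    rw [mul_smul, h1, inv_smul_smul]
  have hcycQ : IsCyclic (Q ⧸ Nu) := ⟨_, hgenK⟩
  have hordK : orderOf (QuotientGroup.mk γK : Q ⧸ Nu) = n := by
    have key : ∀ i : ℕ, (QuotientGroup.mk γK : Q ⧸ Nu) ^ i = 1 ↔ n ∣ i := by
      intro i
      rw [← hcycK2 i, ← QuotientGroup.mk_pow, QuotientGroup.eq_one_iff]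
      constructor
      · intro h1 x hx
        have hxM : x ∈ M := hKnM hx
        have h2 := hrpow ⟨φK, hφKmem⟩ i ⟨x, hxM⟩
        rw [← hγK, h1 ⟨x, hxM⟩ hx] at h2
        exact h2.symm
      · intro h1 x hx
        apply Subtype.ext
        rw [hγK, hrpow]
        exact h1 _ hx
    exact Nat.dvd_antisymm (orderOf_dvd_of_pow_eq_one ((key n).2 dvd_rfl))
      ((key (orderOf _)).1 (pow_orderOf_eq_one _))
  have hcardQu : Nat.card (Q ⧸ Nu) = n := by
    rw [← orderOf_eq_card_of_forall_mem_zpowers hgenK, hordK]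
  -- the index of `NL`
  have hcardQL : Nat.card (Q ⧸ fixSub (M := M) Q L) = n := by
    have h1 := Subgroup.card_eq_card_quotient_mul_card_subgroup (fixSub (M := M) Q L)
    rw [hQcard, hcardNL] at h1
    exact (Nat.eq_of_mul_eq_mul_right he h1).symm
  -- the valuation
  have hv : ∀ (σ : Q) (x : Mˣ),
      ordHom M (Additive.ofMul (σ • x)) = ordHom M (Additive.ofMul x) := by
    intro σ x
    rw [ordHom_apply, ordHom_apply]
    refine ord_eq_of_norm_eq M (Units.ne_zero _) (Units.ne_zero _) ?_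
    exact hQ.isometric σ (x : M)
  -- assemble
  haveI : Fintype (fixSub (M := M) Q L) := Fintype.ofFinite _
  have haQ : ∀ s : Q, s • a = a := by
    intro s
    obtain ⟨σ, rfl⟩ := hsurj s
    apply Units.ext
    apply Subtype.ext
    show ((r σ • (a : M) : M) : PadicAlgCl q) = _
    rw [hr σ (a : M)]
    exact (IntermediateField.mem_fixingSubgroup_iff _ _).1 σ.2 _ haK
  have hstep := Gen.step_generator hQ Nu (fixSub (M := M) Q L) (hcardQu.trans hcardQL.symm)
    (ordHom M) hv (ordHom_surjective M) e he ?_ (by rw [hcardNL]) γL hNL ?_ a haQ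
    (by rw [ordHom_apply]; exact hva)
  · rw [hcardQL] at hstep
    exact hstep
  · -- (he)
    intro x hx
    have hxKn : ((x : M) : PadicAlgCl q) ∈ unr q K n :=
      hmemF (unr q K n) hKnK (x : M) (fun s hs => by
        have := hx s hs
        exact congrArg (fun u : Mˣ => (u : M)) this)
    rw [ordHom_apply]
    exact hdvd (x : M) hxKn
  · -- (hnorm)
    intro u hu hu0
    have huL : ((u : M) : PadicAlgCl q) ∈ L :=
      hmemF L hLK (u : M) (fun s hs => by
        have := hu s hs
        exact congrArg (fun u : Mˣ => (u : M)) this)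
    have hu1 : ‖((u : M) : PadicAlgCl q)‖ = 1 := (ordHom_eq_zero_iff M u).1 hu0
    obtain ⟨π, hπ⟩ := exists_isUnif L
    obtain ⟨b, hbM, hb1, hbprod⟩ := Fermat.Agent.S55.LocUnr89.norm_units_surjective_unr
      (K := L) he hφLmem hφL hπ ((u : M) : PadicAlgCl q) huL hu1
    have hbM' : b ∈ M := by rw [hMeq]; exact hbM
    have hb0 : (⟨b, hbM'⟩ : M) ≠ 0 := by
      intro h0
      have : b = 0 := congrArg (fun y : M => (y : PadicAlgCl q)) h0
      rw [this, norm_zero] at hb1
      exact zero_ne_one hb1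
    refine ⟨Units.mk0 ⟨b, hbM'⟩ hb0, ?_, ?_⟩
    · rw [ordHom_eq_zero_iff]
      exact hb1
    · rw [prod_subgroup_eq_prod_range (fixSub (M := M) Q L) γL hNL e hcardNL]
      apply Units.ext
      apply Subtype.ext
      rw [← hbprod, Units.coe_prod]
      have : ((∏ i ∈ Finset.range e, ((γL ^ i • Units.mk0 (⟨b, hbM'⟩ : M) hb0 : Mˣ) : M) : M) :
          PadicAlgCl q) = ∏ i ∈ Finset.range e,
            (((γL ^ i • Units.mk0 (⟨b, hbM'⟩ : M) hb0 : Mˣ) : M) : PadicAlgCl q) := by
        simp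
      rw [this]
      refine Finset.prod_congr rfl fun i _ => ?_
      show (((γL ^ i) • (⟨b, hbM'⟩ : M) : M) : PadicAlgCl q) = _
      rw [hγL, hrpow]

end Core

/-! ### the case `M = L ⊔ K_n` -/

section Main

variable {K L : LF q} [FiniteDimensional ℚ_[q] K] [FiniteDimensional ℚ_[q] L]
variable (hKL : K ≤ L)

/-- the uniformizer of `K` as a unit of `M = L · K_n`. -/
def unifBig : (bigField hKL)ˣ :=
  Units.mk0 (IntermediateField.inclusion (le_big hKL) (unif K)) (by
    intro h0
    apply (isUnif_unif K).1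
    apply Subtype.ext
    exact congrArg (fun y : bigField hKL => (y : PadicAlgCl q)) h0)

theorem unifBig_mem : (((unifBig hKL : (bigField hKL)ˣ) : bigField hKL) : PadicAlgCl q) ∈ K :=
  (unif K).2

theorem ord_unifBig : ord (bigField hKL) ((unifBig hKL : (bigField hKL)ˣ) : bigField hKL) =
    ramIdx hKL := by
  have h1 := ord_sup_base hKL (deg_pos hKL) (resDeg_dvd_deg hKL) (unif K)
  rw [(isUnif_unif K).ord_eq_one, mul_one] at h1
  exact h1

variable {Q : Type} [Group Q] [MulSemiringAction Q (bigField hKL)]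
variable (r : K.fixingSubgroup →* Q)

/-- **`H²(L/K)` is cyclic of order `[L:K]`**, abstract model `(Q, r)` of `Gal(M/K)`. -/
theorem step_LF_gen
    (hQ : IsLocalGField Q (bigField hKL))
    (hr : ∀ (σ : K.fixingSubgroup) (x : bigField hKL),
      ((r σ • x : bigField hKL) : PadicAlgCl q) = (σ : PadicAlgCl q ≃ₐ[ℚ_[q]] PadicAlgCl q) x)
    (hsurj : Function.Surjective r)
    (hQcard : Nat.card Q = deg hKL * ramIdx hKL)
    [(fixSub (M := bigField hKL) Q L).Normal]
    [(fixSub (M := bigField hKL) Q (unr q K (deg hKL))).Normal] :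
    ∃ γ : groupCohomology ((unitsRep Q (bigField hKL)).quotientToInvariants
        (fixSub (M := bigField hKL) Q L)) 2,
      addOrderOf γ = deg hKL ∧ (∀ x, ∃ j : ℤ, x = j • γ) ∧
      (∀ j : ℤ, j • γ = 0 → (deg hKL : ℤ) ∣ j) ∧
      ∃ γu : groupCohomology ((unitsRep Q (bigField hKL)).quotientToInvariants
          (fixSub (M := bigField hKL) Q (unr q K (deg hKL)))) 2,
        (infl (unitsRep Q (bigField hKL)) (fixSub (M := bigField hKL) Q L)).hom γ =
          (infl (unitsRep Q (bigField hKL))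
            (fixSub (M := bigField hKL) Q (unr q K (deg hKL)))).hom γu :=
  step_core_gen hKL (deg hKL) (ramIdx hKL) (deg_pos hKL) (ramIdx_pos hKL) (le_bigField hKL)
    (unr_le_bigField hKL) (bigField_eq hKL)
    (fun x hx => dvd_ord_of_mem_unr hKL (deg_pos hKL) (resDeg_dvd_deg hKL) x hx)
    r hQ hr hsurj hQcard (unifBig hKL) (unifBig_mem hKL) (ord_unifBig hKL)

variable (hstL : ∀ σ ∈ K.fixingSubgroup, ∀ x ∈ L, σ x ∈ L)

include hstL in
/-- **`H²(L/K)` is cyclic of order `[L:K]`**, for `Q = Gal(M/K)`. -/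
theorem main_LF_gen [(fixSub (M := bigField hKL) (GalBig hKL) L).Normal]
    [(fixSub (M := bigField hKL) (GalBig hKL) (unr q K (deg hKL))).Normal] :
    ∃ γ : groupCohomology ((unitsRep (GalBig hKL) (bigField hKL)).quotientToInvariants
        (fixSub (M := bigField hKL) (GalBig hKL) L)) 2,
      addOrderOf γ = deg hKL ∧ (∀ x, ∃ j : ℤ, x = j • γ) ∧
      (∀ j : ℤ, j • γ = 0 → (deg hKL : ℤ) ∣ j) ∧
      ∃ γu : groupCohomology ((unitsRep (GalBig hKL) (bigField hKL)).quotientToInvariants
          (fixSub (M := bigField hKL) (GalBig hKL) (unr q K (deg hKL)))) 2,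
        (infl (unitsRep (GalBig hKL) (bigField hKL))
            (fixSub (M := bigField hKL) (GalBig hKL) L)).hom γ =
          (infl (unitsRep (GalBig hKL) (bigField hKL))
            (fixSub (M := bigField hKL) (GalBig hKL) (unr q K (deg hKL)))).hom γu :=
  step_LF_gen hKL (resBig hKL hstL) (isLocalGField_galBig hKL) (resBig_apply hKL hstL)
    (resBig_surjective hKL hstL) (card_galBig hKL hstL)

end Main

end Fermat.Agent.S55.LocInv80.LFGen
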