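/-
S55 / 22-LOC-INV, part 22a (helper80): the ABSOLUTE case `K = ℚ_q` of the local class formation
step, with the honest Galois group `Q = Gal(M/ℚ_q) = (↥M ≃ₐ[ℚ_[q]] ↥M)`.

`E : LF q` finite Galois over `ℚ_[q]`, `n = [E : ℚ_q]`, `M = E · (ℚ_q)_n`
(`= LFCore.bigField (bot_le : ⊥ ≤ E)`), `Q = Gal(M/ℚ_q)`.  Then `M / ℚ_q` is Galois,
`Gal(M/E) = fixSub Q E ⊴ Q`, `|H²(Q ⧸ Gal(M/E), (Mˣ)^{Gal(M/E)})| = n` and this group has an
element of order `n` (the lower bound of local class field theory over `ℚ_q`).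
No sorry.
-/
import Mathlib
import Fermat.Agent.S55.LocInv80.LFGen
import Fermat.Agent.S55.LocDev51.LFBase
import Fermat.Agent.S55.UnrExt93.ResBridge

set_option autoImplicit false
set_option linter.unusedSectionVars false
set_option linter.style.haveILetI false

noncomputable section

namespace Fermat.Agent.S55.LocInv80.LFAbs

open Fermat.Agent.S55.LocField17 Fermat.Agent.S55.LocDev51 Fermat.Agent.S55.UnrExt93
  Fermat.Agent.S55.UnrMax66 Fermat.Agent.S55.LocInv80.LFPrep Fermat.Agent.S55.LocInv80.Abs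
  Fermat.Agent.S55.LocInv80.LFCore Fermat.Agent.S55.LocInv80.LF Fermat.Agent.S55.LocInv80.LFGen

attribute [local instance] Units.mulDistribMulActionRight

variable {q : ℕ} [Fact q.Prime]

/-! ### restriction `Gal(Ω/ℚ_q) → Gal(M/ℚ_q)` for a stable `M` -/

section Res

variable {M : LF q} (hst : ∀ σ : PadicAlgCl q ≃ₐ[ℚ_[q]] PadicAlgCl q, ∀ x ∈ M, σ x ∈ M)

/-- restriction to a stable `M`, defined on `(⊥ : LF q).fixingSubgroup` (`= ⊤`). -/
def resAbs : (⊥ : LF q).fixingSubgroup →* (M ≃ₐ[ℚ_[q]] M) where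
  toFun σ :=
    { toFun := fun x => ⟨(σ : PadicAlgCl q ≃ₐ[ℚ_[q]] PadicAlgCl q) x, hst σ x x.2⟩
      invFun := fun x => ⟨(σ : PadicAlgCl q ≃ₐ[ℚ_[q]] PadicAlgCl q).symm x, hst _ x x.2⟩
      left_inv := fun x => Subtype.ext (AlgEquiv.symm_apply_apply _ _)
      right_inv := fun x => Subtype.ext (AlgEquiv.apply_symm_apply _ _)
      map_mul' := fun x y => Subtype.ext (map_mul _ _ _)
      map_add' := fun x y => Subtype.ext (map_add _ _ _)
      commutes' := fun c => Subtype.ext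
        ((σ : PadicAlgCl q ≃ₐ[ℚ_[q]] PadicAlgCl q).commutes c) }
  map_one' := by ext x; rfl
  map_mul' := fun σ τ => by ext x; rfl

theorem resAbs_apply (σ : (⊥ : LF q).fixingSubgroup) (x : M) :
    ((resAbs hst σ • x : M) : PadicAlgCl q) =
      (σ : PadicAlgCl q ≃ₐ[ℚ_[q]] PadicAlgCl q) x := rfl

theorem resAbs_surjective : Function.Surjective (resAbs hst) := by
  intro τ
  obtain ⟨φ, hφ⟩ := IntermediateField.exists_algHom_of_splits
    (fun s : PadicAlgCl q => ⟨Algebra.IsIntegral.isIntegral (R := ℚ_[q]) s,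
      IsAlgClosed.splits _⟩) (M.val.comp (τ : M →ₐ[ℚ_[q]] M))
  have hbij : Function.Bijective φ := Algebra.IsAlgebraic.algHom_bijective φ
  have hσx : ∀ x : M, (AlgEquiv.ofBijective φ hbij) (x : PadicAlgCl q) =
      ((τ x : M) : PadicAlgCl q) := fun x =>
    congrArg (fun f : M →ₐ[ℚ_[q]] PadicAlgCl q => f x) hφ
  have hmem : AlgEquiv.ofBijective φ hbij ∈ (⊥ : LF q).fixingSubgroup := by
    rw [IntermediateField.fixingSubgroup_bot]
    exact Subgroup.mem_top _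
  exact ⟨⟨AlgEquiv.ofBijective φ hbij, hmem⟩, AlgEquiv.ext fun x => Subtype.ext (hσx x)⟩

variable [FiniteDimensional ℚ_[q] M]

include hst in
theorem isGalois_abs : IsGalois ℚ_[q] M := by
  refine (IsGalois.tfae.out 0 1).2 ?_
  rw [eq_bot_iff]
  intro x hx
  have hxK : (x : PadicAlgCl q) ∈ (⊥ : LF q) := by
    rw [← InfiniteGalois.fixedField_fixingSubgroup (⊥ : LF q),
      IntermediateField.mem_fixedField_iff]
    intro σ hσ
    have h1 := hx ⟨resAbs hst ⟨σ, hσ⟩, Subgroup.mem_top _⟩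
    exact congrArg Subtype.val h1
  rw [IntermediateField.mem_bot] at hxK ⊢
  obtain ⟨c, hc⟩ := hxK
  exact ⟨c, Subtype.ext hc⟩

end Res

/-! ### the absolute case -/

section Main

variable (E : LF q) [FiniteDimensional ℚ_[q] E] [IsGalois ℚ_[q] E]

theorem stable_of_isGalois (σ : PadicAlgCl q ≃ₐ[ℚ_[q]] PadicAlgCl q) (x : PadicAlgCl q)
    (hx : x ∈ E) : σ x ∈ E := by
  have h1 := AlgEquiv.restrictNormal_commutes σ E ⟨x, hx⟩
  have h2 : σ x = ((σ.restrictNormal E ⟨x, hx⟩ : E) : PadicAlgCl q) := h1.symm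
  rw [h2]
  exact Subtype.property _

theorem stableBot : ∀ σ ∈ (⊥ : LF q).fixingSubgroup, ∀ x ∈ E, σ x ∈ E :=
  fun σ _ x hx => stable_of_isGalois E σ x hx

/-- `M = E · (ℚ_q)_n`, `n = [E : ℚ_q]`. -/
abbrev bigAbs : LF q := bigField (bot_le : (⊥ : LF q) ≤ E)

/-- `n = [E : ℚ_q]` (as `e f`). -/
abbrev degAbs : ℕ := deg (bot_le : (⊥ : LF q) ≤ E)

theorem stable_bigAbs (σ : PadicAlgCl q ≃ₐ[ℚ_[q]] PadicAlgCl q) :
    ∀ x ∈ bigAbs E, σ x ∈ bigAbs E := by
  have hσ : σ ∈ (⊥ : LF q).fixingSubgroup := by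
    rw [IntermediateField.fixingSubgroup_bot]
    exact Subgroup.mem_top _
  exact stable_big (bot_le : (⊥ : LF q) ≤ E) (stableBot E) σ hσ

theorem degAbs_eq : degAbs E = Module.finrank ℚ_[q] E := by
  have h1 := finrank_rel_eq (bot_le : (⊥ : LF q) ≤ E)
  have h2 := finrank_rel_eq_relfinrank (bot_le : (⊥ : LF q) ≤ E)
  rw [IntermediateField.relfinrank_bot_left] at h2
  exact h1.symm.trans h2

instance isGalois_bigAbs : IsGalois ℚ_[q] (bigAbs E) := isGalois_abs (stable_bigAbs E)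

/-- `Gal(M/ℚ_q)`. -/
abbrev GalAbs : Type := (bigAbs E) ≃ₐ[ℚ_[q]] (bigAbs E)

/-- the restriction `Gal(Ω/ℚ_q) → Gal(M/ℚ_q)`. -/
abbrev rAbs : (⊥ : LF q).fixingSubgroup →* GalAbs E := resAbs (stable_bigAbs E)

theorem card_galAbs : Nat.card (GalAbs E) =
    degAbs E * ramIdx (bot_le : (⊥ : LF q) ≤ E) := by
  rw [IsGalois.card_aut_eq_finrank]
  have h1 := finrank_big (bot_le : (⊥ : LF q) ≤ E)
  have h2 := finrank_rel_eq_relfinrank (le_big (bot_le : (⊥ : LF q) ≤ E))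
  rw [IntermediateField.relfinrank_bot_left] at h2
  exact h2.symm.trans h1

/-- `Gal(M/E) ⊴ Gal(M/ℚ_q)`. -/
instance normal_fixSub_E : (fixSub (M := bigAbs E) (GalAbs E) E).Normal :=
  fixSub_normal (rAbs E) (resAbs_apply (stable_bigAbs E)) (resAbs_surjective (stable_bigAbs E)) E
    (stableBot E)

/-- `Gal(M/(ℚ_q)_n) ⊴ Gal(M/ℚ_q)`. -/
instance normal_fixSub_unr :
    (fixSub (M := bigAbs E) (GalAbs E) (unr q (⊥ : LF q) (degAbs E))).Normal :=
  fixSub_normal (rAbs E) (resAbs_apply (stable_bigAbs E)) (resAbs_surjective (stable_bigAbs E)) _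
    (fun σ hσ _ hx => stable (K := (⊥ : LF q)) (degAbs E) σ hσ hx)

/-- **absolute case**: `|H²(Gal(M/ℚ_q) ⧸ Gal(M/E), (Mˣ)^{Gal(M/E)})| = [E : ℚ_q]`. -/
theorem card_H2_abs :
    Nat.card (groupCohomology ((unitsRep (GalAbs E) (bigAbs E)).quotientToInvariants
      (fixSub (M := bigAbs E) (GalAbs E) E)) 2) = Module.finrank ℚ_[q] E := by
  rw [← degAbs_eq]
  exact (step_LF (bot_le : (⊥ : LF q) ≤ E) (rAbs E) (isLocalGField_base (bigAbs E))
    (resAbs_apply (stable_bigAbs E)) (resAbs_surjective (stable_bigAbs E)) (card_galAbs E)).1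

/-- **absolute case**: `H²(Gal(M/ℚ_q) ⧸ Gal(M/E), (Mˣ)^{Gal(M/E)})` is cyclic of order
`[E : ℚ_q]`. -/
theorem exists_generator_abs :
    ∃ γ : groupCohomology ((unitsRep (GalAbs E) (bigAbs E)).quotientToInvariants
        (fixSub (M := bigAbs E) (GalAbs E) E)) 2,
      addOrderOf γ = Module.finrank ℚ_[q] E ∧ (∀ x, ∃ j : ℤ, x = j • γ) ∧
      (∀ j : ℤ, j • γ = 0 → (Module.finrank ℚ_[q] E : ℤ) ∣ j) := by
  rw [← degAbs_eq]
  obtain ⟨γ, h1, h2, h3, -⟩ := step_LF_gen (bot_le : (⊥ : LF q) ≤ E) (rAbs E)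
    (isLocalGField_base (bigAbs E)) (resAbs_apply (stable_bigAbs E))
    (resAbs_surjective (stable_bigAbs E)) (card_galAbs E)
  exact ⟨γ, h1, h2, h3⟩

end Main

end Fermat.Agent.S55.LocInv80.LFAbs
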