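/-
S55 / 22-LOC-INV (helper80): "every class of `H²(L/K)` is unramified" at the FINITE LEVELS of the
absolute Galois group `G_K = ↥K.fixingSubgroup` acting on `Ωˣ` — the form consumed by the level
cohomology of `Profin15` / `LevelColim49` (helper28's `pres`).

`K ≤ L` finite over `ℚ_[q]`, `L` stable under `G_K`; `A_K = Ωˣ` as a `G_K`-module
(`Rep.res K.fixingSubgroup.subtype (Rep.ofAlgebraAutOnUnits ℚ_[q] Ω)`, literally helper28's `AK K`);
`U_F = F.fixingSubgroup.subgroupOf G_K` (`lev K F`).  With `n = [L:K]`, `M = L · K_n`: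
`∀ x ∈ H²(G_K ⧸ U_L, A^{U_L}), ∃ y ∈ H²(G_K ⧸ U_{K_n}, A^{U_{K_n}})`,
`trans₂ (U_M ≤ U_L) x = trans₂ (U_M ≤ U_{K_n}) y`, hence `infl₂ x = infl₂ y` in any level
cohomology containing these three levels.
Proof: `LFCore.step_LF` for the model `Q = G_K ⧸ U_M`, the isomorphism `unitsRep Q M ≅ layer A_K U_M`
and helper66's `DoubleQuot66`.  No sorry.
-/
import Mathlib
import Fermat.Agent.S55.LocInv80.LF
import Fermat.Agent.S55.DoubleQuot66

set_option autoImplicit false
set_option linter.unusedSectionVars false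
set_option linter.style.haveILetI false

noncomputable section

namespace Fermat.Agent.S55.LocInv80.Level

open CategoryTheory groupCohomology
open Fermat.Agent.S55.LocField17 Fermat.Agent.S55.LocDev51 Fermat.Agent.S55.UnrExt93
  Fermat.Agent.S55.UnrMax66 Fermat.Agent.S55.LocInv80.LFPrep Fermat.Agent.S55.LocInv80.Abs
  Fermat.Agent.S55.LocInv80.LFCore Fermat.Agent.S55.LocInv80.LF
  Fermat.Agent.S55.LevelColim49

attribute [local instance] Units.mulDistribMulActionRight

variable {q : ℕ} [Fact q.Prime]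

/-- `Ωˣ` as a `G_K`-module (`= LocInv28.Padic.AK K` literally). -/
abbrev AK (K : LF q) : Rep.{0, 0, 0} ℤ ↥K.fixingSubgroup :=
  Rep.res K.fixingSubgroup.subtype (Rep.ofAlgebraAutOnUnits ℚ_[q] (PadicAlgCl q))

/-- the level `U_F = G_F ∩ G_K` of `G_K`. -/
abbrev lev (K F : LF q) : Subgroup ↥K.fixingSubgroup :=
  F.fixingSubgroup.subgroupOf K.fixingSubgroup

theorem mem_lev {K F : LF q} (σ : K.fixingSubgroup) :
    σ ∈ lev K F ↔ (σ : PadicAlgCl q ≃ₐ[ℚ_[q]] PadicAlgCl q) ∈ F.fixingSubgroup := Iff.rfl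

theorem lev_normal {K F : LF q} (hF : ∀ σ ∈ K.fixingSubgroup, ∀ x ∈ F, σ x ∈ F) :
    (lev K F).Normal := by
  refine ⟨fun s hs g => ?_⟩
  rw [mem_lev, IntermediateField.mem_fixingSubgroup_iff] at hs ⊢
  intro x hx
  have h1 : (g⁻¹ : K.fixingSubgroup).1 x ∈ F := hF _ g⁻¹.2 x hx
  have h2 := hs _ h1
  show (g : PadicAlgCl q ≃ₐ[ℚ_[q]] PadicAlgCl q)
    ((s : PadicAlgCl q ≃ₐ[ℚ_[q]] PadicAlgCl q) ((g⁻¹ : K.fixingSubgroup).1 x)) = x
  rw [h2]
  show (g : PadicAlgCl q ≃ₐ[ℚ_[q]] PadicAlgCl q)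
    ((g : PadicAlgCl q ≃ₐ[ℚ_[q]] PadicAlgCl q)⁻¹ x) = x
  exact AlgEquiv.apply_symm_apply _ x

theorem lev_mono {K F F' : LF q} (h : F ≤ F') : lev K F' ≤ lev K F := fun _ hσ =>
  IntermediateField.fixingSubgroup_antitone h hσ

/-! ### the model `Q = G_K ⧸ U_M` -/

section Model

variable {K M : LF q} (hst : ∀ σ ∈ K.fixingSubgroup, ∀ x ∈ M, σ x ∈ M)

/-- `G_K` acting on `M` by ring automorphisms. -/
def actHom : K.fixingSubgroup →* RingAut M where
  toFun σ :=
    { toFun := fun x => ⟨(σ : PadicAlgCl q ≃ₐ[ℚ_[q]] PadicAlgCl q) x, hst σ σ.2 x x.2⟩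
      invFun := fun x => ⟨(σ : PadicAlgCl q ≃ₐ[ℚ_[q]] PadicAlgCl q).symm x,
        hst _ (inv_mem σ.2) x x.2⟩
      left_inv := fun x => Subtype.ext (AlgEquiv.symm_apply_apply _ _)
      right_inv := fun x => Subtype.ext (AlgEquiv.apply_symm_apply _ _)
      map_mul' := fun x y => Subtype.ext (map_mul _ _ _)
      map_add' := fun x y => Subtype.ext (map_add _ _ _) }
  map_one' := by ext x; rfl
  map_mul' := fun σ τ => by ext x; rfl

theorem actHom_apply (σ : K.fixingSubgroup) (x : M) :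
    ((actHom hst σ x : M) : PadicAlgCl q) = (σ : PadicAlgCl q ≃ₐ[ℚ_[q]] PadicAlgCl q) x := rfl

theorem lev_le_ker : lev K M ≤ (actHom hst).ker := by
  intro σ hσ
  rw [MonoidHom.mem_ker]
  ext x
  exact (IntermediateField.mem_fixingSubgroup_iff _ _).1 hσ x x.2

theorem ker_le_lev : (actHom hst).ker ≤ lev K M := by
  intro σ hσ
  rw [MonoidHom.mem_ker] at hσ
  rw [mem_lev, IntermediateField.mem_fixingSubgroup_iff]
  intro x hx
  have h1 := congrArg (fun f : RingAut M => ((f ⟨x, hx⟩ : M) : PadicAlgCl q)) hσ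
  exact h1

variable [(lev K M).Normal]

/-- `G_K ⧸ U_M` acting on `M`. -/
def actQ : (K.fixingSubgroup ⧸ lev K M) →* RingAut M :=
  QuotientGroup.lift (lev K M) (actHom hst) (lev_le_ker hst)

theorem actQ_mk (σ : K.fixingSubgroup) :
    actQ hst (QuotientGroup.mk σ) = actHom hst σ := rfl

theorem actQ_injective : Function.Injective (actQ hst) := by
  rw [← MonoidHom.ker_eq_bot_iff, eq_bot_iff]
  intro x hx
  obtain ⟨σ, rfl⟩ := QuotientGroup.mk_surjective x
  rw [MonoidHom.mem_ker, actQ_mk] at hx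
  rw [Subgroup.mem_bot, QuotientGroup.eq_one_iff]
  exact ker_le_lev hst hx

/-- the action of `Q = G_K ⧸ U_M` on `M` (not a global instance: it depends on `hst`). -/
@[reducible] def actionQ : MulSemiringAction (K.fixingSubgroup ⧸ lev K M) M :=
  MulSemiringAction.compHom M (actQ hst)

theorem smul_mk_coe (σ : K.fixingSubgroup) (x : M) :
    letI := actionQ hst
    (((QuotientGroup.mk σ : K.fixingSubgroup ⧸ lev K M) • x : M) : PadicAlgCl q) =
      (σ : PadicAlgCl q ≃ₐ[ℚ_[q]] PadicAlgCl q) x := rfl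

end Model

/-! ### `(G_K ⧸ U_M, M)` is a local G-field of the right cardinality -/

section LocalGField

variable {K M : LF q} [FiniteDimensional ℚ_[q] M] (hKM : K ≤ M)
  (hst : ∀ σ ∈ K.fixingSubgroup, ∀ x ∈ M, σ x ∈ M) [(lev K M).Normal]

theorem lev_eq_ker_resGal :
    letI := relAlgebra hKM
    lev K M = (resGal hKM hst).ker := by
  letI := relAlgebra hKM
  ext σ
  rw [MonoidHom.mem_ker, mem_lev, IntermediateField.mem_fixingSubgroup_iff]
  constructor
  · intro h
    ext x
    exact h x x.2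
  · intro h x hx
    have h1 := congrArg (fun f : M ≃ₐ[K] M => ((f ⟨x, hx⟩ : M) : PadicAlgCl q)) h
    exact h1

/-- `G_K ⧸ U_M ≃* Gal(M/K)`. -/
def equivGal :
    letI := relAlgebra hKM
    (K.fixingSubgroup ⧸ lev K M) ≃* (M ≃ₐ[K] M) := by
  letI := relAlgebra hKM
  exact QuotientGroup.liftEquiv (lev K M) (resGal_surjective hKM hst) (lev_eq_ker_resGal hKM hst)

include hKM hst in
theorem finite_Q : Finite (K.fixingSubgroup ⧸ lev K M) := by
  letI := relAlgebra hKM
  haveI := finiteDimensional_rel hKM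
  exact Finite.of_equiv _ (equivGal hKM hst).symm.toEquiv

include hst in
theorem card_Q :
    letI := relAlgebra hKM
    Nat.card (K.fixingSubgroup ⧸ lev K M) = Module.finrank K M := by
  letI := relAlgebra hKM
  rw [Nat.card_congr (equivGal hKM hst).toEquiv]
  exact card_gal_rel hKM hst

include hKM in
theorem isLocalGField_Q :
    letI := actionQ hst
    IsLocalGField (K.fixingSubgroup ⧸ lev K M) M := by
  letI := actionQ hst
  exact
    { finite := finite_Q hKM hst
      faithful := ⟨fun {a b} h => actQ_injective hst (RingEquiv.ext h)⟩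
      isometric := fun g x => by
        obtain ⟨σ, rfl⟩ := QuotientGroup.mk_surjective g
        show ‖(((QuotientGroup.mk σ : K.fixingSubgroup ⧸ lev K M) • x : M) : PadicAlgCl q)‖ = _
        rw [smul_mk_coe]
        exact norm_algEquiv _ _
      ultrametric := inferInstance
      proper := inferInstance
      nontrivial := ⟨((q : ℕ) : M), norm_pos_iff.2 (natCast_q_ne_zero M), norm_natCast_q_lt_one M⟩ }

end LocalGField

/-! ### the isomorphism `unitsRep (G_K ⧸ U_M) M ≅ layer A_K U_M` -/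

section Iso

variable {K M : LF q} [FiniteDimensional ℚ_[q] M] (hKM : K ≤ M)
  (hst : ∀ σ ∈ K.fixingSubgroup, ∀ x ∈ M, σ x ∈ M) [(lev K M).Normal]

/-- the `Ω`-value of an element of the layer. -/
def valΩ (y : layer (AK K) (lev K M)) : PadicAlgCl q :=
  ((Additive.toMul (y.1 : Additive (PadicAlgCl q)ˣ) : (PadicAlgCl q)ˣ) : PadicAlgCl q)

include hKM in
theorem valΩ_mem (y : layer (AK K) (lev K M)) : valΩ y ∈ M := by
  refine mem_of_fixed (K := M) fun s hs => ?_
  have hsK : s ∈ K.fixingSubgroup := IntermediateField.fixingSubgroup_antitone hKM hs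
  have h1 := y.2 ⟨⟨s, hsK⟩, hs⟩
  exact congrArg (fun z : Additive (PadicAlgCl q)ˣ =>
    ((Additive.toMul z : (PadicAlgCl q)ˣ) : PadicAlgCl q)) h1

include hKM in
theorem valΩ_inv_mem (y : layer (AK K) (lev K M)) :
    (((Additive.toMul (y.1 : Additive (PadicAlgCl q)ˣ) : (PadicAlgCl q)ˣ)⁻¹ : (PadicAlgCl q)ˣ) :
      PadicAlgCl q) ∈ M := by
  rw [Units.val_inv_eq_inv_val]
  exact M.inv_mem (valΩ_mem hKM y)

/-- `Mˣ → (Ωˣ)^{U_M}`. -/
def toLayerFun (u : (↥M)ˣ) : layer (AK K) (lev K M) :=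
  ⟨Additive.ofMul (Units.map (M.val : M →* PadicAlgCl q) u), by
    intro s
    apply Additive.toMul.injective
    apply Units.ext
    exact (IntermediateField.mem_fixingSubgroup_iff _ _).1 s.2 _ (u : M).2⟩

/-- `(Ωˣ)^{U_M} → Mˣ`. -/
def ofLayerFun (y : layer (AK K) (lev K M)) : (↥M)ˣ where
  val := ⟨_, valΩ_mem hKM y⟩
  inv := ⟨_, valΩ_inv_mem hKM y⟩
  val_inv := Subtype.ext (Additive.toMul (y.1 : Additive (PadicAlgCl q)ˣ) : (PadicAlgCl q)ˣ).val_inv
  inv_val := Subtype.ext (Additive.toMul (y.1 : Additive (PadicAlgCl q)ˣ) : (PadicAlgCl q)ˣ).inv_val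

/-- the additive equivalence `unitsRep (G_K ⧸ U_M) M ≃+ (Ωˣ)^{U_M}`. -/
def layerAddEquiv :
    letI := actionQ hst
    unitsRep (K.fixingSubgroup ⧸ lev K M) M ≃+ layer (AK K) (lev K M) := by
  letI := actionQ hst
  exact
    { toFun := fun x => toLayerFun (toU x)
      invFun := fun y => ofU (ofLayerFun hKM y)
      left_inv := fun x => by
        apply toU_injective
        apply Units.ext
        apply Subtype.ext
        rfl
      right_inv := fun y => by
        apply Subtype.ext
        apply Additive.toMul.injective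
        apply Units.ext
        rfl
      map_add' := fun x y => by
        apply Subtype.ext
        apply Additive.toMul.injective
        apply Units.ext
        rfl }

/-- **`unitsRep (G_K ⧸ U_M) M ≅ layer A_K U_M`** as representations of `G_K ⧸ U_M`. -/
def layerIso :
    letI := actionQ hst
    unitsRep (K.fixingSubgroup ⧸ lev K M) M ≅ layer (AK K) (lev K M) := by
  letI := actionQ hst
  exact Rep.mkIso (Representation.Equiv.mk (layerAddEquiv hKM hst).toIntLinearEquiv (by
    intro g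
    induction g using QuotientGroup.induction_on with
    | H σ =>
      ext x
      apply Additive.toMul.injective
      apply Units.ext
      rfl))

end Iso

/-! ### the main theorem at the finite levels of `G_K` -/

section Main

open Fermat.Agent.S55.DoubleQuot66

variable {K L : LF q} [FiniteDimensional ℚ_[q] K] [FiniteDimensional ℚ_[q] L]
variable (hKL : K ≤ L) (hstL : ∀ σ ∈ K.fixingSubgroup, ∀ x ∈ L, σ x ∈ L)

include hstL in
/-- `U_M ⊴ G_K`, `M = L · K_n`. -/
theorem normal_lev_big : (lev K (bigField hKL)).Normal := lev_normal (stable_big hKL hstL)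

include hstL in
/-- `U_L ⊴ G_K`. -/
theorem normal_lev_L : (lev K L).Normal := lev_normal hstL

/-- `U_{K_n} ⊴ G_K`. -/
theorem normal_lev_unr (n : ℕ) : (lev K (unr q K n)).Normal :=
  lev_normal (fun σ hσ _ hx => stable (K := K) n σ hσ hx)

theorem lev_big_le_L : lev K (bigField hKL) ≤ lev K L := lev_mono (le_bigField hKL)

theorem lev_big_le_unr : lev K (bigField hKL) ≤ lev K (unr q K (deg hKL)) :=
  lev_mono (unr_le_bigField hKL)

include hstL in
/-- **every class of `H²(L/K)` is unramified, at the finite levels of `G_K`**: for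
`x ∈ H²(G_K ⧸ U_L, (Ωˣ)^{U_L})` there is `y ∈ H²(G_K ⧸ U_{K_n}, (Ωˣ)^{U_{K_n}})`, `n = [L:K]`, with the
same image in `H²(G_K ⧸ U_M, (Ωˣ)^{U_M})`, `M = L · K_n`. -/
theorem exists_trans₂_eq_unr [(lev K (bigField hKL)).Normal] [(lev K L).Normal]
    [(lev K (unr q K (deg hKL))).Normal] (x : H2 (layer (AK K) (lev K L))) :
    ∃ y : H2 (layer (AK K) (lev K (unr q K (deg hKL)))),
      trans₂ (AK K) (lev_big_le_L hKL) x = trans₂ (AK K) (lev_big_le_unr hKL) y := by
  have hst := stable_big hKL hstL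
  have hKM := le_big hKL
  letI := actionQ hst
  -- the model `(Q, r)`
  have hr : ∀ (σ : K.fixingSubgroup) (z : bigField hKL),
      (((QuotientGroup.mk' (lev K (bigField hKL)) σ) • z : bigField hKL) : PadicAlgCl q) =
        (σ : PadicAlgCl q ≃ₐ[ℚ_[q]] PadicAlgCl q) z := fun σ z => rfl
  have hsurj : Function.Surjective (QuotientGroup.mk' (lev K (bigField hKL))) :=
    QuotientGroup.mk'_surjective _
  have hcard : Nat.card (K.fixingSubgroup ⧸ lev K (bigField hKL)) = deg hKL * ramIdx hKL := by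
    rw [← finrank_big hKL]
    exact card_Q hKM hst
  haveI hN1 : (fixSub (M := bigField hKL) (K.fixingSubgroup ⧸ lev K (bigField hKL)) L).Normal :=
    fixSub_normal (QuotientGroup.mk' _) hr hsurj L hstL
  haveI hN2 : (fixSub (M := bigField hKL) (K.fixingSubgroup ⧸ lev K (bigField hKL))
      (unr q K (deg hKL))).Normal :=
    fixSub_normal (QuotientGroup.mk' _) hr hsurj _
      (fun σ hσ _ hx => stable (K := K) (deg hKL) σ hσ hx)
  obtain ⟨-, ψ, hψ⟩ := step_LF hKL (QuotientGroup.mk' (lev K (bigField hKL)))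
    (isLocalGField_Q hKM hst) hr hsurj hcard
  -- transport to the layer
  have h1 : ∀ y₁ : H2 ((unitsRep (K.fixingSubgroup ⧸ lev K (bigField hKL))
        (bigField hKL)).quotientToInvariants
        (fixSub (M := bigField hKL) (K.fixingSubgroup ⧸ lev K (bigField hKL)) L)),
      ∃ y₂ : H2 ((unitsRep (K.fixingSubgroup ⧸ lev K (bigField hKL))
        (bigField hKL)).quotientToInvariants
        (fixSub (M := bigField hKL) (K.fixingSubgroup ⧸ lev K (bigField hKL))
          (unr q K (deg hKL)))),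
        (infl _ _).hom y₂ = (infl _ _).hom y₁ := fun y₁ =>
    ⟨ψ.symm y₁, by rw [← hψ, LinearEquiv.apply_symm_apply]⟩
  have h2 := exists_infl_eq_of_iso (layerIso hKM hst) h1
  -- membership dictionaries
  have hmem : ∀ (F : LF q), F ≤ bigField hKL → ∀ g : K.fixingSubgroup,
      ((g : K.fixingSubgroup ⧸ lev K (bigField hKL)) ∈
        fixSub (M := bigField hKL) (K.fixingSubgroup ⧸ lev K (bigField hKL)) F) ↔
        g ∈ lev K F := by
    intro F hF g
    rw [mem_lev, IntermediateField.mem_fixingSubgroup_iff]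
    constructor
    · intro h z hz
      have h3 := h ⟨z, hF hz⟩ hz
      exact congrArg (fun w : bigField hKL => (w : PadicAlgCl q)) h3
    · intro h z hz
      apply Subtype.ext
      exact h _ hz
  exact exists_trans₂_eq (AK K) (hmem L (le_bigField hKL))
    (hmem _ (unr_le_bigField hKL)) (lev_big_le_L hKL) (lev_big_le_unr hKL) h2 x

end Main

end Fermat.Agent.S55.LocInv80.Level
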