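/-
S55 / 22-LOC-INV, part 22a (helper80): the type-level master theorem of the local class formation.

`E/F` a finite Galois extension of fields, `G = Gal(E/F)`, `A = Eˣ` (`Rep.ofAlgebraAutOnUnits F E`),
`L' Ku` intermediate fields Galois over `F` (think: `E = L' Ku`, `Ku / F` unramified of degree
`[L' : F]`), `v : Additive Eˣ →+ ℤ` the normalised valuation of `E`.  From
* `v` is `G`-invariant and surjective, `e ∣ v x` for `x ∈ Ku`, `[E : L'] ∣ e`,
* `Gal(E/L')` is cyclic and every unit of `L'` (`v = 0`) is the norm of a unit of `E`,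
* Hilbert 90 for the subgroups of `G`,
we get `res_{L'} ∘ inf_{Ku} = 0` on `H²`, hence `|H²(Ku/F)| ≤ |H²(L'/F)|`, and with the upper bound
`H²(Ku/F) ≃ H²(L'/F)` inside `H²(E/F)`.   Mathlib + `Abs` + `CyclicH2` + `InfRes9`.  No sorry.
-/
import Mathlib
import Fermat.Agent.S55.LocInv80.Abs
import Fermat.Agent.S55.LocInv80.CyclicH2

set_option autoImplicit false

open CategoryTheory groupCohomology Rep Limits

namespace Fermat.Agent.S55.LocInv80.Local

open Fermat.Agent.S55.LocInv80.Abs Fermat.Agent.S55.LocInv80.CyclicH2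

variable {F E : Type} [Field F] [Field E] [Algebra F E] [FiniteDimensional F E] [IsGalois F E]

/-- the unit module `Eˣ` of `Gal(E/F)`. -/
noncomputable abbrev U (F E : Type) [Field F] [Field E] [Algebra F E] : Rep.{0, 0, 0} ℤ (E ≃ₐ[F] E) :=
  Rep.ofAlgebraAutOnUnits F E

omit [FiniteDimensional F E] [IsGalois F E] in
theorem U_ρ_apply (σ : E ≃ₐ[F] E) (x : Additive Eˣ) :
    (U F E).ρ σ x = Additive.ofMul (σ • x.toMul) := rfl

/-- an element of `Eˣ` fixed by `Gal(E/L')` lies in `L'`. -/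
theorem mem_of_fixed (L' : IntermediateField F E) (x : E)
    (h : ∀ σ ∈ L'.fixingSubgroup, σ x = x) : x ∈ L' := by
  rw [← IsGalois.fixedField_fixingSubgroup L', IntermediateField.mem_fixedField_iff]
  exact h

section Vanish

variable (L' Ku : IntermediateField F E) [IsGalois F L'] [IsGalois F Ku]
  [Fintype L'.fixingSubgroup]
variable (v : Additive Eˣ →+ ℤ)

omit [IsGalois F L'] in
/-- the cocycle hypothesis `hU` of `Abs.res_inf_eq_zero` from cyclicity + norm surjectivity on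
units. -/
theorem hU_of_cyclic
    (hv : ∀ (σ : E ≃ₐ[F] E) (x : Eˣ), v (Additive.ofMul (σ • x)) = v (Additive.ofMul x))
    (φ : E ≃ₐ[F] E) (hφ : L'.fixingSubgroup = Subgroup.zpowers φ)
    (hnorm : ∀ u : Eˣ, (u : E) ∈ L' → v (Additive.ofMul u) = 0 →
      ∃ w : Eˣ, v (Additive.ofMul w) = 0 ∧
        ∏ σ : L'.fixingSubgroup, ((σ : E ≃ₐ[F] E) • w) = u) :
    ∀ c ∈ cocycles₂ (res L'.fixingSubgroup.subtype (U F E)), (∀ p, v (c p) = 0) →
      c ∈ coboundaries₂ (res L'.fixingSubgroup.subtype (U F E)) := by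
  classical
  intro c hc hcv
  have hφmem : φ ∈ L'.fixingSubgroup := by rw [hφ]; exact Subgroup.mem_zpowers φ
  let g : L'.fixingSubgroup := ⟨φ, hφmem⟩
  have hg : ∀ x : L'.fixingSubgroup, x ∈ Subgroup.zpowers g := by
    intro x
    have hx : (x : E ≃ₐ[F] E) ∈ Subgroup.zpowers φ := by rw [← hφ]; exact x.2
    obtain ⟨n, hn⟩ := Subgroup.mem_zpowers_iff.1 hx
    refine Subgroup.mem_zpowers_iff.2 ⟨n, Subtype.ext ?_⟩
    rw [Subgroup.coe_zpow]
    exact hn
  refine mem_coboundaries₂_of_norm_int (res L'.fixingSubgroup.subtype (U F E)) g hg v ?_ ?_ c hc hcv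
  · intro h x
    show v ((U F E).ρ (h : E ≃ₐ[F] E) x) = v x
    rw [U_ρ_apply, hv]
    rfl
  · intro u hu hinv
    have huL : ((Additive.toMul (u : Additive Eˣ) : Eˣ) : E) ∈ L' := by
      refine mem_of_fixed L' _ fun σ hσ => ?_
      have h2 : (U F E).ρ σ u = u := hinv ⟨σ, hσ⟩
      rw [U_ρ_apply] at h2
      have h3 := congrArg (fun z : Additive Eˣ => ((Additive.toMul z : Eˣ) : E)) h2
      simpa [AlgEquiv.smul_units_def] using h3
    obtain ⟨w, hw0, hw⟩ := hnorm (Additive.toMul (u : Additive Eˣ)) huL hu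
    refine ⟨Additive.ofMul w, hw0, ?_⟩
    have h4 : ∀ σ : L'.fixingSubgroup, (res L'.fixingSubgroup.subtype (U F E)).ρ σ (Additive.ofMul w) =
        Additive.ofMul ((σ : E ≃ₐ[F] E) • w) := fun σ => rfl
    simp only [h4]
    have h5 : (∑ σ : L'.fixingSubgroup, Additive.ofMul ((σ : E ≃ₐ[F] E) • w) : Additive Eˣ) =
        Additive.ofMul (∏ σ : L'.fixingSubgroup, ((σ : E ≃ₐ[F] E) • w)) := (ofMul_prod _ _).symm
    exact h5.trans (congrArg Additive.ofMul hw)

omit [IsGalois F L'] in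
/-- **the unramified classes die on `L'`**: `res_{Gal(E/L')} ∘ inf_{Gal(E/F)/Gal(E/Ku)} = 0`. -/
theorem infl_rest_eq_zero
    (hv : ∀ (σ : E ≃ₐ[F] E) (x : Eˣ), v (Additive.ofMul (σ • x)) = v (Additive.ofMul x))
    (hsurj : Function.Surjective v) (e : ℕ)
    (he : ∀ x : Eˣ, (x : E) ∈ Ku → (e : ℤ) ∣ v (Additive.ofMul x))
    (hcard : Module.finrank L' E ∣ e)
    (φ : E ≃ₐ[F] E) (hφ : L'.fixingSubgroup = Subgroup.zpowers φ)
    (hnorm : ∀ u : Eˣ, (u : E) ∈ L' → v (Additive.ofMul u) = 0 →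
      ∃ w : Eˣ, v (Additive.ofMul w) = 0 ∧
        ∏ σ : L'.fixingSubgroup, ((σ : E ≃ₐ[F] E) • w) = u) :
    infl (U F E) Ku.fixingSubgroup ≫ rest (U F E) L'.fixingSubgroup = 0 := by
  refine res_inf_eq_zero (U F E) Ku.fixingSubgroup L'.fixingSubgroup v (fun g _ a => ?_) hsurj e
    (fun a ha => ?_) ?_ (hU_of_cyclic L' v hv φ hφ hnorm)
  · rw [U_ρ_apply]
    exact hv g _
  · refine he (Additive.toMul (a : Additive Eˣ)) (mem_of_fixed Ku _ fun σ hσ => ?_)
    have h2 : (U F E).ρ σ a = a := ha σ hσ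
    rw [U_ρ_apply] at h2
    have h3 := congrArg (fun z : Additive Eˣ => ((Additive.toMul z : Eˣ) : E)) h2
    simpa [AlgEquiv.smul_units_def] using h3
  · rw [IsGalois.card_fixingSubgroup_eq_finrank]
    exact hcard

/-- **lower bound**: `|H²(Ku/F)| ≤ |H²(L'/F)|` (as subquotients of `(Gal(E/F), Eˣ)`). -/
theorem card_H2_le
    (hv : ∀ (σ : E ≃ₐ[F] E) (x : Eˣ), v (Additive.ofMul (σ • x)) = v (Additive.ofMul x))
    (hsurj : Function.Surjective v) (e : ℕ)
    (he : ∀ x : Eˣ, (x : E) ∈ Ku → (e : ℤ) ∣ v (Additive.ofMul x))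
    (hcard : Module.finrank L' E ∣ e)
    (φ : E ≃ₐ[F] E) (hφ : L'.fixingSubgroup = Subgroup.zpowers φ)
    (hnorm : ∀ u : Eˣ, (u : E) ∈ L' → v (Additive.ofMul u) = 0 →
      ∃ w : Eˣ, v (Additive.ofMul w) = 0 ∧
        ∏ σ : L'.fixingSubgroup, ((σ : E ≃ₐ[F] E) • w) = u)
    (h90 : ∀ H : Subgroup (E ≃ₐ[F] E), IsZero (groupCohomology (res H.subtype (U F E)) 1))
    [Finite (groupCohomology ((U F E).quotientToInvariants L'.fixingSubgroup) 2)] :
    Nat.card (groupCohomology ((U F E).quotientToInvariants Ku.fixingSubgroup) 2) ≤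
      Nat.card (groupCohomology ((U F E).quotientToInvariants L'.fixingSubgroup) 2) :=
  card_le (U F E) Ku.fixingSubgroup L'.fixingSubgroup (h90 _) (h90 _)
    (infl_rest_eq_zero L' Ku v hv hsurj e he hcard φ hφ hnorm)

/-- **the step of the local class formation**: with the upper bound, `H²(Ku/F) ≃ H²(L'/F)`
compatibly with the inflations to `H²(E/F)`. -/
theorem exists_H2_equiv
    (hv : ∀ (σ : E ≃ₐ[F] E) (x : Eˣ), v (Additive.ofMul (σ • x)) = v (Additive.ofMul x))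
    (hsurj : Function.Surjective v) (e : ℕ)
    (he : ∀ x : Eˣ, (x : E) ∈ Ku → (e : ℤ) ∣ v (Additive.ofMul x))
    (hcard : Module.finrank L' E ∣ e)
    (φ : E ≃ₐ[F] E) (hφ : L'.fixingSubgroup = Subgroup.zpowers φ)
    (hnorm : ∀ u : Eˣ, (u : E) ∈ L' → v (Additive.ofMul u) = 0 →
      ∃ w : Eˣ, v (Additive.ofMul w) = 0 ∧
        ∏ σ : L'.fixingSubgroup, ((σ : E ≃ₐ[F] E) • w) = u)
    (h90 : ∀ H : Subgroup (E ≃ₐ[F] E), IsZero (groupCohomology (res H.subtype (U F E)) 1))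
    [Finite (groupCohomology ((U F E).quotientToInvariants L'.fixingSubgroup) 2)]
    (hle : Nat.card (groupCohomology ((U F E).quotientToInvariants L'.fixingSubgroup) 2) ≤
      Nat.card (groupCohomology ((U F E).quotientToInvariants Ku.fixingSubgroup) 2)) :
    ∃ ψ : groupCohomology ((U F E).quotientToInvariants Ku.fixingSubgroup) 2 ≃ₗ[ℤ]
        groupCohomology ((U F E).quotientToInvariants L'.fixingSubgroup) 2,
      ∀ x, (infl (U F E) L'.fixingSubgroup).hom (ψ x) =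
        (infl (U F E) Ku.fixingSubgroup).hom x :=
  exists_equiv (U F E) Ku.fixingSubgroup L'.fixingSubgroup (h90 _) (h90 _)
    (infl_rest_eq_zero L' Ku v hv hsurj e he hcard φ hφ hnorm) hle

end Vanish

end Fermat.Agent.S55.LocInv80.Local
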